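import Fermat.Agent.Gal.Unramified

/-!
# The mod `q` cyclotomic character

The action on a primitive `q`-th root of unity as a character of `G_ℚ`; inertia at `q` maps onto
`(ℤ/q)ˣ`.
-/

set_option autoImplicit false

noncomputable section

namespace Fermat.Agent.Root.ClassField

open scoped Pointwise

local notation "ℚbar" => AlgebraicClosure ℚ
local notation "Γ" => AlgebraicClosure ℚ ≃ₐ[ℚ] AlgebraicClosure ℚ

variable (q : ℕ) [hq : Fact q.Prime]

theorem exists_primitiveRoot : ∃ ζ : ℚbar, IsPrimitiveRoot ζ q := by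
  have : NeZero q := ⟨hq.out.ne_zero⟩
  exact HasEnoughRootsOfUnity.exists_primitiveRoot ℚbar q

/-- A chosen primitive `q`-th root of unity. -/
def rootQ : ℚbar := (exists_primitiveRoot q).choose

theorem rootQ_spec : IsPrimitiveRoot (rootQ q) q := (exists_primitiveRoot q).choose_spec

/-- The mod `q` cyclotomic character. -/
def cycloChar : Γ →* (ZMod q)ˣ :=
  haveI : NeZero q := ⟨hq.out.ne_zero⟩
  (rootQ_spec q).autToPow ℚ

theorem cycloChar_spec (σ : Γ) : rootQ q ^ ((cycloChar q σ : ZMod q)).val = σ (rootQ q) := by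
  have : NeZero q := ⟨hq.out.ne_zero⟩
  exact (rootQ_spec q).autToPow_spec ℚ σ

theorem cycloChar_eq_of_apply {σ : Γ} {a : ℕ} (h : σ (rootQ q) = rootQ q ^ a) :
    (cycloChar q σ : ZMod q) = (a : ZMod q) := by
  rw [← cycloChar_spec] at h
  have : NeZero q := ⟨hq.out.ne_zero⟩
  have h' : rootQ q ^ ((cycloChar q σ : ZMod q)).val = rootQ q ^ (a % q) := by
    rw [h]
    conv_lhs => rw [← Nat.mod_add_div a q, pow_add, pow_mul, (rootQ_spec q).pow_eq_one, one_pow,
      mul_one]
  have := (rootQ_spec q).pow_inj (ZMod.val_lt _) (Nat.mod_lt _ hq.out.pos) h'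
  rw [← ZMod.natCast_mod a q, ← this, ZMod.natCast_zmod_val]

theorem cycloChar_frob {A : ValuationSubring ℚbar} {φ : Γ} {p : ℕ} (hp : p.Prime) (hpq : p ≠ q)
    (hA : A.LiesOverPrime p) (hφ : A.IsFrobeniusAt φ p) :
    (cycloChar q φ : ZMod q) = (p : ZMod q) :=
  cycloChar_eq_of_apply q (Gal.apply_rootOfUnity_of_isFrobeniusAt hφ hp hA
    (fun h => hpq ((Nat.prime_dvd_prime_iff_eq hp hq.out).1 h)) (rootQ_spec q).pow_eq_one)

theorem cycloChar_inertia {A : ValuationSubring ℚbar} {σ : Γ} {p : ℕ} (hp : p.Prime) (hpq : p ≠ q)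
    (hA : A.LiesOverPrime p) (hσ : σ ∈ A.inertiaSubgroupIn ℚ) : cycloChar q σ = 1 := by
  obtain ⟨φ, hφ⟩ := Gal.exists_isFrobeniusAt hp hA
  have h1 := cycloChar_frob q hp hpq hA hφ
  have h2 := cycloChar_frob q hp hpq hA (Gal.isFrobeniusAt_mul_inertia hφ hσ)
  rw [← h1, map_mul, Units.val_mul] at h2
  exact Units.ext ((mul_eq_left₀ (cycloChar q φ).ne_zero).1 h2)

/-- The level of the character. -/
theorem cycloChar_eq_one {σ : Γ} (hσ : σ ∈ (IntermediateField.adjoin ℚ {rootQ q}).fixingSubgroup) :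
    cycloChar q σ = 1 := by
  refine Units.ext ?_
  rw [Units.val_one, ← Nat.cast_one]
  refine cycloChar_eq_of_apply q ?_
  rw [pow_one]
  exact (mem_fixingSubgroup_iff Γ).1 hσ _ (IntermediateField.mem_adjoin_simple_self ℚ _)

theorem cycloChar_surjective : Function.Surjective (cycloChar q) := by
  intro a
  have hcop : (a : ZMod q).val.Coprime q := ZMod.val_coe_unit_coprime a
  have hprim := (rootQ_spec q).pow_of_coprime _ hcop
  have hirr := Polynomial.cyclotomic.irreducible_rat hq.out.pos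
  have hmin : minpoly ℚ (rootQ q) = minpoly ℚ (rootQ q ^ (a : ZMod q).val) := by
    rw [← (rootQ_spec q).minpoly_eq_cyclotomic_of_irreducible hirr,
      ← hprim.minpoly_eq_cyclotomic_of_irreducible hirr]
  obtain ⟨σ, hσ⟩ := minpoly.exists_algEquiv_of_root (K := ℚ) (L := ℚbar)
    (x := rootQ q) (y := rootQ q ^ (a : ZMod q).val) (Algebra.IsAlgebraic.isAlgebraic _)
    (by rw [← hmin]; exact minpoly.aeval _ _)
  exact ⟨σ, Units.ext ((cycloChar_eq_of_apply q hσ).trans (ZMod.natCast_zmod_val _))⟩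

/-- Inertia at `q` surjects onto `(ℤ/q)ˣ`. -/
theorem exists_inertia_cycloChar_eq {A : ValuationSubring ℚbar} (hA : A.LiesOverPrime q)
    (a : (ZMod q)ˣ) : ∃ σ ∈ A.inertiaSubgroupIn ℚ, cycloChar q σ = a := by
  set J : Subgroup (ZMod q)ˣ := (A.inertiaSubgroupIn ℚ).map (cycloChar q)
  have : FiniteDimensional ℚ (IntermediateField.adjoin ℚ {rootQ q}) :=
    IntermediateField.adjoin.finiteDimensional (Algebra.IsIntegral.isIntegral (R := ℚ) _)
  have hle : (IntermediateField.adjoin ℚ {rootQ q}).fixingSubgroup ≤ J.comap (cycloChar q) :=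
    fun σ hσ => by rw [Subgroup.mem_comap, cycloChar_eq_one q hσ]; exact one_mem _
  have hopen : IsOpen ((J.comap (cycloChar q) : Subgroup Γ) : Set Γ) :=
    Subgroup.isOpen_mono hle (IntermediateField.fixingSubgroup_isOpen _)
  have htop := Gal.eq_top_of_inertia_le _ (Subgroup.isClosed_of_isOpen _ hopen)
    fun p hp B hB σ hσ => ?_
  · obtain ⟨σ, rfl⟩ := cycloChar_surjective q a
    exact (htop.symm ▸ Subgroup.mem_top σ : σ ∈ J.comap (cycloChar q))
  · rw [Subgroup.mem_comap]
    by_cases hpq : p = q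
    · subst hpq
      obtain ⟨g, rfl⟩ := Gal.exists_smul_eq_of_liesOverPrime hp hA hB
      have h1 : g⁻¹ * σ * g ∈ A.inertiaSubgroupIn ℚ := by
        rw [← Gal.mem_inertia_smul_iff g]
        rwa [show g * (g⁻¹ * σ * g) * g⁻¹ = σ by group]
      refine ⟨_, h1, ?_⟩
      rw [map_mul, map_mul, map_inv, mul_comm, mul_inv_cancel_left]
    · rw [cycloChar_inertia q hp hpq hB hσ]
      exact one_mem _

end Fermat.Agent.Root.ClassField
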