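import Fermat.Agent.Root.ClassField.ClassMap
import Fermat.Agent.Duality.Global.FirstInequality

/-!
# Ambiguous classes of an unramified quadratic extension of a totally complex field

If `L/K` is quadratic, unramified at every prime and both fields are totally complex, then at most
half as many classes of `L` are fixed by the Galois group as `K` has classes.
-/

set_option autoImplicit false

noncomputable section

namespace Fermat.Agent.Root.ClassField

open NumberField Module UniqueFactorizationMonoid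
open Fermat.Agent.Duality.Global
open scoped nonZeroDivisors

variable {K L : Type} [Field K] [NumberField K] [Field L] [NumberField L] [Algebra K L]

/-- `σ` on the ring of integers. -/
abbrev intAut (σ : L ≃ₐ[K] L) : 𝓞 L ≃+* 𝓞 L := RingOfIntegers.mapRingEquiv σ.toRingEquiv

omit [NumberField K] [NumberField L] in
theorem coe_intAut (σ : L ≃ₐ[K] L) (x : 𝓞 L) : ((intAut σ x : 𝓞 L) : L) = σ (x : L) := rfl

omit [NumberField K] [NumberField L] in
theorem intAut_algebraMap (σ : L ≃ₐ[K] L) (x : 𝓞 K) :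
    intAut σ (algebraMap (𝓞 K) (𝓞 L) x) = algebraMap (𝓞 K) (𝓞 L) x :=
  RingOfIntegers.ext (σ.commutes (x : K))

section Quadratic

variable [IsGalois K L] (hdeg : finrank K L = 2) {σ : L ≃ₐ[K] L} (hσ : σ ≠ 1)
include hdeg hσ

theorem eq_one_or_eq (τ : L ≃ₐ[K] L) : τ = 1 ∨ τ = σ := by
  classical
  have hc : Fintype.card (L ≃ₐ[K] L) = 2 := by
    rw [← Nat.card_eq_fintype_card, natCard_aut, hdeg]
  have hu : ({1, σ} : Finset (L ≃ₐ[K] L)) = Finset.univ :=
    Finset.eq_univ_of_card _ (by rw [hc, Finset.card_pair (Ne.symm hσ)])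
  simpa using (hu ▸ Finset.mem_univ τ : τ ∈ ({1, σ} : Finset (L ≃ₐ[K] L)))

theorem mul_self_eq_one : σ * σ = 1 :=
  (eq_one_or_eq hdeg hσ (σ * σ)).resolve_right fun e => hσ (mul_eq_left.1 e)

theorem algebraMap_norm_eq (x : L) : algebraMap K L (Algebra.norm K x) = x * σ x := by
  classical
  have hu : (Finset.univ : Finset (L ≃ₐ[K] L)) = {1, σ} := by
    refine (Finset.eq_univ_of_forall fun τ => ?_).symm
    rcases eq_one_or_eq hdeg hσ τ with h | h <;> simp [h]
  rw [Algebra.norm_eq_prod_automorphisms, hu, Finset.prod_pair (Ne.symm hσ), AlgEquiv.one_apply]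

theorem intAut_intAut (x : 𝓞 L) : intAut σ (intAut σ x) = x :=
  RingOfIntegers.ext (by
    rw [coe_intAut, coe_intAut, ← AlgEquiv.mul_apply, mul_self_eq_one hdeg hσ, AlgEquiv.one_apply])

theorem map_map_intAut (I : Ideal (𝓞 L)) : (I.map (intAut σ)).map (intAut σ) = I := by
  refine (Ideal.map_map (intAut σ : 𝓞 L →+* 𝓞 L) (intAut σ : 𝓞 L →+* 𝓞 L)).trans ?_
  conv_rhs => rw [← Ideal.map_id I]
  exact congrArg (fun f => Ideal.map f I) (RingHom.ext fun x => intAut_intAut hdeg hσ x)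

/-- The primes over a prime are conjugate. -/
theorem eq_or_eq_map {P Q : Ideal (𝓞 L)} [P.IsMaximal] [Q.IsMaximal]
    (h : P.under (𝓞 K) = Q.under (𝓞 K)) : Q = P ∨ Q = P.map (intAut σ) := by
  have hsub : ∀ x ∈ P, x ∈ Q ∨ intAut σ x ∈ Q := by
    intro x hx
    have he : algebraMap (𝓞 K) (𝓞 L) (Algebra.intNorm (𝓞 K) (𝓞 L) x) = x * intAut σ x := by
      refine RingOfIntegers.ext ?_
      show algebraMap K L (algebraMap (𝓞 K) K (Algebra.intNorm (𝓞 K) (𝓞 L) x)) = _
      rw [Algebra.algebraMap_intNorm (K := K) (L := L), algebraMap_norm_eq hdeg hσ]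
      rfl
    have hN : Algebra.intNorm (𝓞 K) (𝓞 L) x ∈ Q.under (𝓞 K) := by
      rw [← h, Ideal.mem_comap, he]
      exact P.mul_mem_right _ hx
    rw [Ideal.mem_comap, he] at hN
    exact (Ideal.IsMaximal.isPrime inferInstance).mem_or_mem hN
  have hsub' : (P : Set (𝓞 L)) ⊆ Q ∪ (Q.comap (intAut σ : 𝓞 L →+* 𝓞 L) : Ideal (𝓞 L)) :=
    fun x hx => hsub x hx
  have hQne : Q ≠ ⊤ := Ideal.IsMaximal.ne_top inferInstance
  rcases (Ideal.subset_union.1 hsub') with h1 | h1
  · exact Or.inl (Ideal.IsMaximal.eq_of_le inferInstance hQne h1).symm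
  · right
    have := (Ideal.comap_isPrime (intAut σ : 𝓞 L →+* 𝓞 L) Q)
    rw [Ideal.IsMaximal.eq_of_le inferInstance (Ideal.IsPrime.ne_top inferInstance) h1]
    exact (Ideal.map_comap_of_surjective (intAut σ : 𝓞 L →+* 𝓞 L) (intAut σ).surjective Q).symm

variable (hram : ∀ P : Ideal (𝓞 L), P.IsPrime → P ≠ ⊥ →
  ¬ P ^ 2 ∣ (P.under (𝓞 K)).map (algebraMap (𝓞 K) (𝓞 L)))
include hram

/-- An invariant ideal comes from `K`. -/
theorem exists_eq_map_of_invariant (J : Ideal (𝓞 L)) (hJ : J ≠ ⊥) (hinv : J.map (intAut σ) = J) :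
    ∃ J' : Ideal (𝓞 K), J' ≠ ⊥ ∧ J = J'.map (algebraMap (𝓞 K) (𝓞 L)) := by
  classical
  induction hn : Ideal.absNorm J using Nat.strong_induction_on generalizing J with
  | _ n ih =>
  by_cases htop : J = ⊤
  · exact ⟨⊤, by simp, by rw [htop, Ideal.map_top]⟩
  obtain ⟨P, hP, hJP⟩ := Ideal.exists_le_maximal J htop
  have hP0 : P ≠ ⊥ := fun e => hJ (le_bot_iff.1 (e ▸ hJP))
  set P0 := P.under (𝓞 K) with hP0def
  have : P0.IsMaximal := Ideal.IsMaximal.under (𝓞 K) P
  set E := P0.map (algebraMap (𝓞 K) (𝓞 L))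
  have hP00 : P0 ≠ ⊥ := fun e => hP0 (Ideal.eq_bot_of_comap_eq_bot e)
  have hE : E ≠ ⊥ :=
    (Ideal.map_eq_bot_iff_of_injective (FaithfulSMul.algebraMap_injective _ _)).not.2 hP00
  have hfac : ∀ Q ∈ normalizedFactors E, Q ∣ J ∧ ¬ Q ^ 2 ∣ E := by
    intro Q hQ
    have hQp := prime_of_normalized_factor Q hQ
    have : Q.IsMaximal := (Ideal.isPrime_of_prime hQp).isMaximal hQp.ne_zero
    have hu : Q.under (𝓞 K) = P0 := by
      refine (Ideal.IsMaximal.eq_of_le inferInstance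
        (Ideal.IsMaximal.ne_top (I := Q.under (𝓞 K)) (Ideal.IsMaximal.under _ _)) ?_).symm
      exact Ideal.map_le_iff_le_comap.1 (Ideal.dvd_iff_le.1 (dvd_of_mem_normalizedFactors hQ))
    refine ⟨Ideal.dvd_iff_le.2 ?_, fun h2 => hram Q inferInstance hQp.ne_zero (by rwa [hu])⟩
    rcases eq_or_eq_map hdeg hσ (hP0def.symm.trans hu.symm) with e | e
    · exact e ▸ hJP
    · rw [e, ← hinv]
      exact Ideal.map_mono hJP
  have hnd : (normalizedFactors E).Nodup := by
    rw [Multiset.nodup_iff_count_le_one]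
    intro Q
    by_contra! h2
    have hQ : Q ∈ normalizedFactors E := Multiset.count_pos.1 (by omega)
    refine (hfac Q hQ).2 ?_
    have hrep : Multiset.replicate 2 Q ≤ normalizedFactors E :=
      Multiset.le_count_iff_replicate_le.1 h2
    have := Multiset.prod_dvd_prod_of_le hrep
    rwa [Multiset.prod_replicate, Ideal.prod_normalizedFactors_eq_self hE] at this
  have hdvd : E ∣ J := by
    rw [← Ideal.prod_normalizedFactors_eq_self hE, ← Multiset.map_id (normalizedFactors E),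
      ← Multiset.dedup_eq_self.2 hnd]
    exact Finset.prod_primes_dvd J (s := (normalizedFactors E).toFinset)
      (fun Q hQ => prime_of_normalized_factor Q (Multiset.mem_toFinset.1 hQ))
      fun Q hQ => (hfac Q (Multiset.mem_toFinset.1 hQ)).1
  obtain ⟨J'', hJ''⟩ := hdvd
  have hJ''0 : J'' ≠ ⊥ := fun e => hJ (by rw [hJ'', e, Ideal.mul_bot])
  have hEinv : E.map (intAut σ) = E := by
    refine (Ideal.map_map (algebraMap (𝓞 K) (𝓞 L)) (intAut σ : 𝓞 L →+* 𝓞 L)).trans ?_
    exact congrArg (fun f => Ideal.map f P0) (RingHom.ext fun x => intAut_algebraMap σ x)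
  have hinv'' : J''.map (intAut σ) = J'' := by
    have h := hinv
    rw [hJ'', Ideal.map_mul, hEinv] at h
    exact mul_left_cancel₀ hE h
  have hlt : Ideal.absNorm J'' < n := by
    rw [← hn, hJ'', map_mul]
    refine lt_mul_of_one_lt_left (Nat.pos_of_ne_zero (Ideal.absNorm_eq_zero_iff.not.2 hJ''0)) ?_
    refine Nat.one_lt_iff_ne_zero_and_ne_one.2 ⟨Ideal.absNorm_eq_zero_iff.not.2 hE, fun e => ?_⟩
    exact hP.ne_top (top_le_iff.1 ((Ideal.absNorm_eq_one_iff.1 e).ge.trans Ideal.map_comap_le))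
  obtain ⟨J', hJ'0, hJ'⟩ := ih _ hlt J'' hJ''0 hinv'' rfl
  exact ⟨P0 * J', mul_ne_zero hP00 hJ'0, by rw [Ideal.map_mul, ← hJ', hJ'']⟩

omit hram in
/-- A norm-one element is `σ z / z` for an integral `z`. -/
theorem exists_int_div {y : L} (hy : Algebra.norm K y = 1) :
    ∃ z : 𝓞 L, z ≠ 0 ∧ y * (z : L) = σ (z : L) := by
  have : IsCyclic (L ≃ₐ[K] L) := ⟨⟨σ, mem_zpowers_of_prime Nat.prime_two hdeg hσ⟩⟩
  obtain ⟨w, hw⟩ := groupCohomology.exists_div_of_norm_eq_one
    (mem_zpowers_of_prime Nat.prime_two hdeg hσ) hy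
  obtain ⟨⟨z, d, n, hn, rfl⟩, hz⟩ :=
    IsLocalization.surj (Algebra.algebraMapSubmonoid (𝓞 L) ℤ⁰) ((w : L)⁻¹)
  have hz' : (z : L) = (w : L)⁻¹ * (n : L) := by
    rw [show (z : L) = algebraMap (𝓞 L) L z from rfl, ← hz]; simp
  have hn0 : (n : L) ≠ 0 := Int.cast_ne_zero.2 (nonZeroDivisors.ne_zero hn)
  refine ⟨z, fun h0 => mul_ne_zero (inv_ne_zero w.ne_zero) hn0 ?_, ?_⟩
  · rw [← hz', h0]; rfl
  · have hσw : σ (w : L) ≠ 0 := (map_ne_zero_iff _ σ.injective).2 w.ne_zero
    rw [hz', map_mul, map_intCast, map_inv₀, ← hw]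
    field_simp

omit hram in
/-- `Nat.card` of the first Herbrand group of units is twice the second. -/
theorem herbrand_units [IsTotallyComplex K] [IsTotallyComplex L] :
    herbrand1 2 (sigmaEnd (∅ : Finset (IsDedekindDomain.HeightOneSpectrum (𝓞 K))) σ) =
      2 * (unitNorms L (∅ : Finset (IsDedekindDomain.HeightOneSpectrum (𝓞 K)))).index := by
  set S : Finset (IsDedekindDomain.HeightOneSpectrum (𝓞 K)) := ∅ with hS
  obtain ⟨-, -, hH⟩ := herbrand_eq Nat.prime_two (sigmaEnd_pow_eq_one S hdeg σ)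
  rw [herbrand0_eq S Nat.prime_two hdeg hσ,
    ← (fixedEquiv S Nat.prime_two hdeg hσ).toIntLinearEquiv.finrank_eq, finrank_sUnit,
    finrank_sUnit] at hH
  have hpl : (placesOver L S).card = 0 := by
    rw [Finset.card_eq_zero]
    exact Finset.eq_empty_of_forall_notMem fun w hw => by
      obtain ⟨v, hv, -⟩ := mem_placesOver.1 hw
      simp [hS] at hv
  have hcl : Fintype.card (InfinitePlace L) = 2 * Fintype.card (InfinitePlace K) := by
    have hK : finrank ℚ K = 2 * Fintype.card (InfinitePlace K) := by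
      rw [IsTotallyComplex.finrank, InfinitePlace.card_eq_nrRealPlaces_add_nrComplexPlaces,
        IsTotallyComplex.nrRealPlaces_eq_zero, zero_add]
    have hL : finrank ℚ L = 2 * Fintype.card (InfinitePlace L) := by
      rw [IsTotallyComplex.finrank, InfinitePlace.card_eq_nrRealPlaces_add_nrComplexPlaces,
        IsTotallyComplex.nrRealPlaces_eq_zero, zero_add]
    have := Module.finrank_mul_finrank ℚ K L
    rw [hdeg] at this
    omega
  obtain ⟨r, hr⟩ : ∃ r, Fintype.card (InfinitePlace K) = r + 1 :=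
    ⟨_, (Nat.succ_pred_eq_of_pos Fintype.card_pos).symm⟩
  simp only [hS, Finset.card_empty, Nat.add_zero, Units.rank, hcl, hr] at hH
  rw [← hS] at hH
  rw [show 2 * (r + 1) - 1 = 2 * r + 1 by omega, show r + 1 - 1 = r by omega, pow_succ,
    hpl, Nat.add_zero, pow_succ, pow_zero, one_mul] at hH
  have h2 : (2 : ℕ) ^ (2 * r) ≠ 0 := pow_ne_zero _ two_ne_zero
  rw [show (2 : ℕ) - 1 = 1 by norm_num, pow_one] at hH
  apply mul_right_cancel₀ h2
  linarith

variable (σ) in
/-- Data attaching the unit `ε` to the fixed class `C`. -/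
def FixRel (C : ClassGroup (𝓞 L)) (ε : (𝓞 K)ˣ) : Prop :=
  ∃ (I : (Ideal (𝓞 L))⁰) (a b : 𝓞 L), a ≠ 0 ∧ b ≠ 0 ∧ ClassGroup.mk0 I = C ∧
    Ideal.span {a} * (I : Ideal (𝓞 L)).map (intAut σ) = Ideal.span {b} * (I : Ideal (𝓞 L)) ∧
    algebraMap (𝓞 K) (𝓞 L) ε * (b * intAut σ b) = a * intAut σ a

omit hram in
theorem exists_fixRel {C : ClassGroup (𝓞 L)} (hC : clAct K σ C = C) : ∃ ε, FixRel σ C ε := by
  obtain ⟨I, rfl⟩ := ClassGroup.mk0_surjective C
  have hI' : (I : Ideal (𝓞 L)).map (intAut σ) ∈ (Ideal (𝓞 L))⁰ :=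
    mem_nonZeroDivisors_iff_ne_zero.2
      ((Ideal.map_eq_bot_iff_of_injective (intAut σ).injective).not.2
        (nonZeroDivisors.coe_ne_zero I))
  rw [clAct_mk0 σ I ⟨_, hI'⟩ rfl] at hC
  obtain ⟨a, b, ha, hb, hab⟩ := ClassGroup.mk0_eq_mk0_iff.1 hC
  simp only at hab
  have hab' := congrArg (Ideal.map (intAut σ)) hab
  rw [Ideal.map_mul, Ideal.map_mul, Ideal.map_span, Ideal.map_span, Set.image_singleton,
    Set.image_singleton, map_map_intAut hdeg hσ] at hab'
  have hspan : Ideal.span {a * intAut σ a} = Ideal.span {b * intAut σ b} := by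
    have h1 : (Ideal.span {a * intAut σ a}) * ((I : Ideal (𝓞 L)).map (intAut σ) * I) =
        Ideal.span {b * intAut σ b} * ((I : Ideal (𝓞 L)).map (intAut σ) * I) := by
      rw [← Ideal.span_singleton_mul_span_singleton, ← Ideal.span_singleton_mul_span_singleton]
      calc _ = (Ideal.span {a} * (I : Ideal (𝓞 L)).map (intAut σ)) *
            (Ideal.span {intAut σ a} * I) := by ring
        _ = _ := by rw [hab, hab']; ring
    exact mul_right_cancel₀ (mul_ne_zero ((Ideal.map_eq_bot_iff_of_injective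
      (intAut σ).injective).not.2 (nonZeroDivisors.coe_ne_zero I))
        (nonZeroDivisors.coe_ne_zero I)) h1
  obtain ⟨e, he⟩ := (Ideal.span_singleton_eq_span_singleton.1 hspan).symm
  -- `he : b σb * e = a σa`
  have hefix : intAut σ e = (e : 𝓞 L) := by
    have h1 := congrArg (intAut σ) he
    simp only [map_mul, intAut_intAut hdeg hσ] at h1
    rw [mul_comm (intAut σ a) a, ← he, mul_comm (intAut σ b) b] at h1
    exact mul_left_cancel₀ (mul_ne_zero hb ((map_ne_zero_iff _ (intAut σ).injective).2 hb)) h1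
  have hefix' : intAut σ ((e⁻¹ : (𝓞 L)ˣ) : 𝓞 L) = ((e⁻¹ : (𝓞 L)ˣ) : 𝓞 L) := by
    refine e.isUnit.mul_left_cancel ?_
    rw [Units.mul_inv]
    calc (e : 𝓞 L) * intAut σ ((e⁻¹ : (𝓞 L)ˣ) : 𝓞 L)
        = intAut σ e * intAut σ ((e⁻¹ : (𝓞 L)ˣ) : 𝓞 L) := by
          rw [hefix]
      _ = 1 := by rw [← map_mul, Units.mul_inv, map_one]
  have hdesc : ∀ x : 𝓞 L, intAut σ x = x → ∃ x₀ : 𝓞 K, algebraMap (𝓞 K) (𝓞 L) x₀ = x := by
    intro x hx
    obtain ⟨x₀, hx₀⟩ : (x : L) ∈ Set.range (algebraMap K L) := by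
      rw [IsGalois.mem_range_algebraMap_iff_fixed]
      intro τ
      rcases eq_one_or_eq hdeg hσ τ with h | h
      · rw [h, AlgEquiv.one_apply]
      · rw [h, ← coe_intAut, hx]
    exact ⟨⟨x₀, (isIntegral_algebraMap_iff (algebraMap K L).injective).1 (hx₀ ▸ x.2)⟩,
      RingOfIntegers.ext hx₀⟩
  obtain ⟨e₀, he₀⟩ := hdesc _ hefix
  obtain ⟨f₀, hf₀⟩ := hdesc _ hefix'
  have hef : e₀ * f₀ = 1 := FaithfulSMul.algebraMap_injective (𝓞 K) (𝓞 L)
    (by rw [map_mul, he₀, hf₀, map_one, Units.mul_inv])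
  refine ⟨⟨e₀, f₀, hef, by rw [mul_comm, hef]⟩, I, a, b, ha, hb, rfl, hab, ?_⟩
  show algebraMap (𝓞 K) (𝓞 L) e₀ * _ = _
  rw [he₀, mul_comm, he]

/-- A class with trivial unit comes from `K`. -/
theorem mem_range_of_fixRel {C : ClassGroup (𝓞 L)} {ε : (𝓞 K)ˣ} (h : FixRel σ C ε) {η : (𝓞 L)ˣ}
    (hη : algebraMap (𝓞 K) (𝓞 L) ε = η * intAut σ η) :
    C ∈ (ClassGroup.extendedHom (𝓞 K) (𝓞 L)).range := by
  obtain ⟨I, a, b, ha, hb, rfl, hab, he⟩ := h
  rw [hη] at he
  have ha' : (a : L) ≠ 0 := RingOfIntegers.coe_ne_zero_iff.2 ha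
  have hNy : Algebra.norm K ((((η : 𝓞 L) * b : 𝓞 L) : L) / (a : L)) = 1 := by
    refine (algebraMap K L).injective ?_
    rw [algebraMap_norm_eq hdeg hσ, map_one, map_div₀, div_mul_div_comm,
      div_eq_one_iff_eq (mul_ne_zero ha' ((map_ne_zero_iff _ σ.injective).2 ha')),
      ← coe_intAut, ← coe_intAut, map_mul (intAut σ)]
    have := congrArg (fun t : 𝓞 L => (t : L)) he
    push_cast at this ⊢
    linear_combination this
  obtain ⟨z, hz0, hz⟩ := exists_int_div hdeg hσ hNy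
  have hz' : (η : 𝓞 L) * b * z = a * intAut σ z := RingOfIntegers.ext (by
    rw [div_mul_eq_mul_div, div_eq_iff ha'] at hz
    push_cast at hz ⊢
    show _ = (a : L) * σ (z : L)
    linear_combination hz)
  set J : Ideal (𝓞 L) := Ideal.span {intAut σ z} * (I : Ideal (𝓞 L))
  have hσz : intAut σ z ≠ 0 := (map_ne_zero_iff _ (intAut σ).injective).2 hz0
  have hJ0 : J ≠ ⊥ := mul_ne_zero (by simpa [Ideal.span_singleton_eq_bot] using hσz)
    (nonZeroDivisors.coe_ne_zero I)
  have hJinv : J.map (intAut σ) = J := by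
    simp only [J, Ideal.map_mul, Ideal.map_span, Set.image_singleton, intAut_intAut hdeg hσ]
    have h1 : Ideal.span {a} * (Ideal.span {z} * (I : Ideal (𝓞 L)).map (intAut σ)) =
        Ideal.span {a} * (Ideal.span {intAut σ z} * (I : Ideal (𝓞 L))) := by
      calc _ = Ideal.span {z} * (Ideal.span {a} * (I : Ideal (𝓞 L)).map (intAut σ)) := by ring
        _ = Ideal.span {(η : 𝓞 L) * b * z} * (I : Ideal (𝓞 L)) := by
            rw [hab, ← Ideal.span_singleton_mul_span_singleton,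
              ← Ideal.span_singleton_mul_span_singleton,
              Ideal.span_singleton_eq_top.2 η.isUnit, Ideal.top_mul]
            ring
        _ = _ := by rw [hz', ← Ideal.span_singleton_mul_span_singleton, mul_assoc]
    exact mul_left_cancel₀ (by simpa [Ideal.span_singleton_eq_bot] using ha) h1
  obtain ⟨J', hJ'0, hJJ'⟩ := exists_eq_map_of_invariant hdeg hσ hram J hJ0 hJinv
  refine ⟨ClassGroup.mk0 ⟨J', mem_nonZeroDivisors_iff_ne_zero.2 hJ'0⟩, ?_⟩
  rw [ClassGroup.extendedHom_mk0]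
  refine ClassGroup.mk0_eq_mk0_iff.2 ⟨1, intAut σ z, one_ne_zero, hσz, ?_⟩
  show Ideal.span {1} * J'.map (algebraMap (𝓞 K) (𝓞 L)) = _
  rw [Ideal.span_singleton_one, Ideal.top_mul, ← hJJ']

variable (σ) in
/-- Data attaching a capitulating class of `K` to a unit of norm one. -/
def CapRel (u : (𝓞 L)ˣ) (C : ClassGroup (𝓞 K)) : Prop :=
  ∃ (z : 𝓞 L) (J : (Ideal (𝓞 K))⁰), z ≠ 0 ∧ (u : 𝓞 L) * z = intAut σ z ∧
    Ideal.span {z} = (J : Ideal (𝓞 K)).map (algebraMap (𝓞 K) (𝓞 L)) ∧ ClassGroup.mk0 J = C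

theorem exists_capRel {u : (𝓞 L)ˣ} (hu : Algebra.norm K ((u : 𝓞 L) : L) = 1) :
    ∃ C, C ∈ (ClassGroup.extendedHom (𝓞 K) (𝓞 L)).ker ∧ CapRel σ u C := by
  obtain ⟨z, hz0, hz⟩ := exists_int_div hdeg hσ hu
  have hz' : (u : 𝓞 L) * z = intAut σ z := RingOfIntegers.ext (by
    rw [coe_intAut, ← hz]; rfl)
  have hinv : (Ideal.span {z}).map (intAut σ) = Ideal.span {z} := by
    rw [Ideal.map_span, Set.image_singleton, ← hz', ← Ideal.span_singleton_mul_span_singleton,
      Ideal.span_singleton_eq_top.2 u.isUnit, Ideal.top_mul]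
  obtain ⟨J, hJ0, hJ⟩ := exists_eq_map_of_invariant hdeg hσ hram (Ideal.span {z})
    (by simpa [Ideal.span_singleton_eq_bot] using hz0) hinv
  refine ⟨ClassGroup.mk0 ⟨J, mem_nonZeroDivisors_iff_ne_zero.2 hJ0⟩, ?_, z,
    ⟨J, mem_nonZeroDivisors_iff_ne_zero.2 hJ0⟩, hz0, hz', hJ, rfl⟩
  rw [MonoidHom.mem_ker, ClassGroup.extendedHom_mk0, ClassGroup.mk0_eq_one_iff]
  exact ⟨z, hJ.symm⟩

omit hdeg hσ hram [NumberField L] [IsGalois K L] in
theorem exists_unit_of_capRel {u : (𝓞 L)ˣ} (h : CapRel σ u 1) :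
    ∃ v : (𝓞 L)ˣ, (u : 𝓞 L) * v = intAut σ v := by
  obtain ⟨z, J, hz0, hz, hJ, hJ1⟩ := h
  obtain ⟨x, hx⟩ := ((ClassGroup.mk0_eq_one_iff J.2).1 hJ1).principal
  have hx' : (J : Ideal (𝓞 K)) = Ideal.span {x} := hx
  rw [hx', Ideal.map_span, Set.image_singleton] at hJ
  obtain ⟨v, hv⟩ := (Ideal.span_singleton_eq_span_singleton.1 hJ).symm
  -- `hv : x v = z`
  refine ⟨v, mul_left_cancel₀ (a := algebraMap (𝓞 K) (𝓞 L) x) ?_ ?_⟩
  · intro h0
    rw [h0, zero_mul] at hv
    exact hz0 hv.symm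
  · calc algebraMap (𝓞 K) (𝓞 L) x * ((u : 𝓞 L) * v) = u * (algebraMap (𝓞 K) (𝓞 L) x * v) := by ring
      _ = intAut σ (algebraMap (𝓞 K) (𝓞 L) x * v) := by rw [hv, hz]
      _ = _ := by rw [map_mul, intAut_algebraMap]

omit hdeg hσ hram [NumberField K] [IsGalois K L] in
theorem fixRel_mul {C C' : ClassGroup (𝓞 L)} {ε ε' : (𝓞 K)ˣ} (h : FixRel σ C ε)
    (h' : FixRel σ C' ε') : FixRel σ (C * C') (ε * ε') := by
  obtain ⟨I, a, b, ha, hb, rfl, hab, he⟩ := h
  obtain ⟨I', a', b', ha', hb', rfl, hab', he'⟩ := h'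
  refine ⟨I * I', a * a', b * b', mul_ne_zero ha ha', mul_ne_zero hb hb', map_mul _ _ _, ?_, ?_⟩
  · rw [Submonoid.coe_mul, Ideal.map_mul, ← Ideal.span_singleton_mul_span_singleton,
      ← Ideal.span_singleton_mul_span_singleton]
    calc _ = (Ideal.span {a} * (I : Ideal (𝓞 L)).map (intAut σ)) *
        (Ideal.span {a'} * (I' : Ideal (𝓞 L)).map (intAut σ)) := by ring
      _ = _ := by rw [hab, hab']; ring
  · rw [Units.val_mul, map_mul, map_mul, map_mul]
    calc _ = (algebraMap (𝓞 K) (𝓞 L) ε * (b * intAut σ b)) *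
        (algebraMap (𝓞 K) (𝓞 L) ε' * (b' * intAut σ b')) := by ring
      _ = _ := by rw [he, he']; ring

omit hdeg hσ hram [NumberField K] [IsGalois K L] in
theorem fixRel_one : FixRel σ (1 : ClassGroup (𝓞 L)) 1 :=
  ⟨1, 1, 1, one_ne_zero, one_ne_zero, map_one _, by simp [Ideal.one_eq_top, Ideal.map_top], by simp⟩

omit hdeg hσ hram [NumberField L] [IsGalois K L] in
theorem capRel_mul {u u' : (𝓞 L)ˣ} {C C' : ClassGroup (𝓞 K)} (h : CapRel σ u C)
    (h' : CapRel σ u' C') : CapRel σ (u * u') (C * C') := by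
  obtain ⟨z, J, hz0, hz, hJ, rfl⟩ := h
  obtain ⟨z', J', hz0', hz', hJ', rfl⟩ := h'
  refine ⟨z * z', J * J', mul_ne_zero hz0 hz0', ?_, ?_, map_mul _ _ _⟩
  · rw [Units.val_mul, map_mul, ← hz, ← hz']; ring
  · rw [← Ideal.span_singleton_mul_span_singleton, hJ, hJ', Submonoid.coe_mul, Ideal.map_mul]

/-- **Ambiguous classes.** -/
theorem two_mul_card_fixed_le [IsTotallyComplex K] [IsTotallyComplex L] :
    2 * Nat.card {C : ClassGroup (𝓞 L) // clAct K σ C = C} ≤ Nat.card (ClassGroup (𝓞 K)) := by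
  classical
  set S : Finset (IsDedekindDomain.HeightOneSpectrum (𝓞 K)) := ∅ with hS
  set j := ClassGroup.extendedHom (𝓞 K) (𝓞 L)
  let uK : (𝓞 K)ˣ →* sUnit K S :=
    (Units.map (algebraMap (𝓞 K) K).toMonoidHom).codRestrict _ fun u v _ => by
      show v.valuation K (algebraMap (𝓞 K) K u) = 1
      rw [IsDedekindDomain.HeightOneSpectrum.valuation_of_algebraMap,
        IsDedekindDomain.HeightOneSpectrum.intValuation_eq_one_iff]
      exact fun h => v.isPrime.ne_top (Ideal.eq_top_of_isUnit_mem _ h u.isUnit)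
  have : (unitNorms L S).Normal := inferInstance
  have : Finite (sUnit K S ⧸ unitNorms L S) := by
    refine @Subgroup.finite_quotient_of_finiteIndex _ _ (unitNorms L S) ⟨?_⟩
    rw [← herbrand0_eq S Nat.prime_two hdeg hσ]
    exact (herbrand_eq Nat.prime_two (sigmaEnd_pow_eq_one S hdeg σ)).1
  -- the fixed classes
  let T : Submonoid (ClassGroup (𝓞 L) × (sUnit K S ⧸ unitNorms L S)) :=
    { carrier := {x | ∃ ε, FixRel σ x.1 ε ∧ QuotientGroup.mk (uK ε) = x.2}
      one_mem' := ⟨1, fixRel_one, by simp⟩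
      mul_mem' := by
        rintro x y ⟨ε, h, hε⟩ ⟨ε', h', hε'⟩
        exact ⟨ε * ε', fixRel_mul h h', by rw [map_mul, QuotientGroup.mk_mul, hε, hε']; rfl⟩ }
  have hTG : ∀ x ∈ T, x⁻¹ ∈ T := fun x hx => by
    obtain ⟨i, hi⟩ := mem_powers_iff_mem_zpowers.2
      (Subgroup.inv_mem _ (Subgroup.mem_zpowers x))
    rw [← hi]
    exact T.pow_mem hx i
  let TG : Subgroup (ClassGroup (𝓞 L) × (sUnit K S ⧸ unitNorms L S)) :=
    { T with inv_mem' := fun {x} hx => hTG x hx }
  have hcardT : Nat.card TG ≤ Nat.card j.range * (unitNorms L S).index := by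
    let π : TG →* sUnit K S ⧸ unitNorms L S := (MonoidHom.snd _ _).comp TG.subtype
    rw [Subgroup.card_eq_card_quotient_mul_card_subgroup π.ker, mul_comm]
    refine Nat.mul_le_mul ?_ ?_
    · refine Nat.card_le_card_of_injective (fun x => (⟨x.1.1.1, ?_⟩ : j.range)) fun x y hxy => ?_
      · obtain ⟨⟨⟨C, q⟩, hT⟩, hker⟩ := x
        obtain ⟨ε, hrel, hq⟩ := hT
        have hq1 : q = 1 := hker
        rw [show q = QuotientGroup.mk (uK ε) from hq.symm, QuotientGroup.eq_one_iff] at hq1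
        obtain ⟨w, hw, hwe⟩ := hq1
        obtain ⟨η, hη⟩ := exists_unit_of_ordHom_eq_zero (F := L) (S := placesOver L S)
          (Additive.ofMul ⟨w, hw⟩) (funext fun v => by
            obtain ⟨v', hv', -⟩ := mem_placesOver.1 v.2
            simp [hS] at hv')
        refine mem_range_of_fixRel hdeg hσ hram hrel (η := η) (RingOfIntegers.ext ?_)
        have h1 := congrArg (fun t : Kˣ => algebraMap K L (t : K)) hwe
        simp only [coe_normHom, algebraMap_norm_eq hdeg hσ] at h1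
        have h2 : ((η : 𝓞 L) : L) = (w : L) := congrArg Units.val hη
        show algebraMap K L ((ε : 𝓞 K) : K) = ((η : 𝓞 L) : L) * σ ((η : 𝓞 L) : L)
        rw [h2, h1]
        rfl
      · have h1 : x.1.1.1 = y.1.1.1 := congrArg Subtype.val hxy
        exact Subtype.ext (Subtype.ext (Prod.ext h1 (x.2.trans y.2.symm)))
    · rw [Nat.card_congr (QuotientGroup.quotientKerEquivRange π).toEquiv, Subgroup.index]
      exact Nat.card_le_card_of_injective _ π.range.subtype_injective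
  have hfix : Nat.card {C : ClassGroup (𝓞 L) // clAct K σ C = C} ≤ Nat.card TG := by
    choose e he using fun C : {C : ClassGroup (𝓞 L) // clAct K σ C = C} =>
      exists_fixRel hdeg hσ C.2
    exact Nat.card_le_card_of_injective
      (fun C => (⟨(C.1, QuotientGroup.mk (uK (e C))), e C, he C, rfl⟩ : TG))
      fun C C' h => Subtype.ext (congrArg (fun t : TG => t.1.1) h)
  -- the capitulation kernel
  set s := sigmaEnd (L := L) S σ with hs
  set N := normEnd 2 s
  set B := (AddMonoidHom.range (s - 1)).addSubgroupOf (AddMonoidHom.ker N)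
  have hB0 : B.index ≠ 0 := (herbrand_eq Nat.prime_two (sigmaEnd_pow_eq_one S hdeg σ)).2.1
  have : Finite (AddMonoidHom.ker N ⧸ B) := @AddSubgroup.finite_quotient_of_finiteIndex _ _ B ⟨hB0⟩
  let uL : (𝓞 L)ˣ → Additive (sUnitUp L S) := fun u =>
    unitsToSUnit (placesOver L S) (Additive.ofMul u)
  have huLmul : ∀ u u', uL (u * u') = uL u + uL u' := fun u u' =>
    map_add (unitsToSUnit (placesOver L S)) (Additive.ofMul u) (Additive.ofMul u')
  have hcoe : ∀ u, ((Additive.toMul (uL u)).1 : L) = ((u : 𝓞 L) : L) := fun u => rfl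
  have hkerN : ∀ u, uL u ∈ AddMonoidHom.ker N ↔ Algebra.norm K ((u : 𝓞 L) : L) = 1 := by
    intro u
    show N (uL u) = 0 ↔ _
    rw [← (algebraMap K L).injective.eq_iff (b := 1), map_one, ← hcoe,
      ← normEnd_apply S Nat.prime_two hdeg hσ]
    constructor
    · intro h; rw [h]; rfl
    · intro h; exact Additive.toMul.injective (Subtype.ext (Units.ext h))
  let T' : AddSubmonoid ((AddMonoidHom.ker N ⧸ B) × Additive (ClassGroup (𝓞 K))) :=
    { carrier := {x | ∃ (u : (𝓞 L)ˣ) (hu : uL u ∈ AddMonoidHom.ker N) (C : ClassGroup (𝓞 K)),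
          C ∈ j.ker ∧ CapRel σ u C ∧ QuotientAddGroup.mk ⟨uL u, hu⟩ = x.1 ∧ Additive.ofMul C = x.2}
      zero_mem' := ⟨1, by rw [show uL 1 = 0 from map_zero _]; exact zero_mem _, 1, one_mem _,
        ⟨1, 1, one_ne_zero, by simp, by simp [Ideal.one_eq_top, Ideal.map_top], map_one _⟩,
        (QuotientAddGroup.eq_zero_iff _).2 (by
          show (uL 1) ∈ AddMonoidHom.range (s - 1)
          rw [show uL 1 = 0 from map_zero _]; exact zero_mem _), rfl⟩
      add_mem' := by
        rintro x y ⟨u, hu, C, hC, h, h1, h2⟩ ⟨u', hu', C', hC', h', h1', h2'⟩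
        refine ⟨u * u', huLmul u u' ▸ add_mem hu hu', C * C', mul_mem hC hC', capRel_mul h h', ?_,
          by rw [ofMul_mul, h2, h2']; rfl⟩
        rw [Prod.fst_add, ← h1, ← h1', ← QuotientAddGroup.mk_add]
        exact congrArg _ (Subtype.ext (huLmul u u')) }
  have hTG' : ∀ x ∈ T', -x ∈ T' := fun x hx => by
    obtain ⟨i, hi⟩ := mem_multiples_iff_mem_zmultiples.2
      (AddSubgroup.neg_mem _ (AddSubgroup.mem_zmultiples x))
    rw [← hi]
    clear hi
    induction i with
    | zero => show (0 : ℕ) • x ∈ T'; rw [zero_nsmul]; exact T'.zero_mem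
    | succ i ih => show (i + 1) • x ∈ T'; rw [succ_nsmul]; exact T'.add_mem ih hx
  let TG' : AddSubgroup ((AddMonoidHom.ker N ⧸ B) × Additive (ClassGroup (𝓞 K))) :=
    { T' with neg_mem' := fun {x} hx => hTG' x hx }
  have hcap : herbrand1 2 s ≤ Nat.card j.ker := by
    show B.index ≤ _
    calc B.index ≤ Nat.card TG' := by
          rw [AddSubgroup.index]
          refine Nat.card_le_card_of_surjective (fun x : TG' => x.1.1) fun q => ?_
          obtain ⟨⟨w, hw⟩, rfl⟩ := QuotientAddGroup.mk_surjective q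
          obtain ⟨u, hu⟩ :=
            exists_unit_of_ordHom_eq_zero (S := placesOver L S) w (funext fun v => by
            obtain ⟨v', hv', -⟩ := mem_placesOver.1 v.2
            simp [hS] at hv')
          have huw : uL u = w := Additive.toMul.injective (Subtype.ext hu)
          obtain ⟨C, hC, hrel⟩ := exists_capRel hdeg hσ hram ((hkerN u).1 (huw ▸ hw))
          exact ⟨⟨(QuotientAddGroup.mk ⟨w, hw⟩, Additive.ofMul C), u, huw ▸ hw, C, hC, hrel,
            congrArg _ (Subtype.ext huw), rfl⟩, rfl⟩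
      _ ≤ Nat.card j.ker := by
          refine Nat.card_le_card_of_injective
            (fun x : TG' => (⟨Additive.toMul x.1.2, by
              obtain ⟨u, hu, C, hC, -, -, h2⟩ := x.2
              rw [← h2]; exact hC⟩ : j.ker)) fun x y hxy => ?_
          have h2 : x.1.2 = y.1.2 := congrArg Additive.ofMul (congrArg Subtype.val hxy)
          have hd : (x - y).1.1 = 0 := by
            obtain ⟨u, hu, C, -, hrel, h1, hC⟩ := (x - y).2
            have hC1 : C = 1 := by
              have : (x - y).1.2 = 0 := sub_eq_zero.2 h2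
              exact Additive.ofMul.injective (hC.trans this)
            subst hC1
            obtain ⟨v, hv⟩ := exists_unit_of_capRel hrel
            rw [← h1, QuotientAddGroup.eq_zero_iff]
            refine ⟨uL v, ?_⟩
            show s (uL v) - uL v = uL u
            rw [sub_eq_iff_eq_add, ← huLmul]
            refine Additive.toMul.injective (Subtype.ext (Units.ext ?_))
            rw [sigmaEnd_apply, hcoe, hcoe, Units.val_mul]
            exact (coe_intAut σ v).symm.trans (congrArg _ hv.symm)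
          exact Subtype.ext (Prod.ext (sub_eq_zero.1 hd) h2)
  have h1 := herbrand_units hdeg hσ (L := L)
  rw [← hS, ← hs] at h1
  calc 2 * Nat.card {C : ClassGroup (𝓞 L) // clAct K σ C = C}
      ≤ 2 * (Nat.card j.range * (unitNorms L S).index) := Nat.mul_le_mul le_rfl (hfix.trans hcardT)
    _ = Nat.card j.range * herbrand1 2 s := by rw [h1]; ring
    _ ≤ Nat.card j.range * Nat.card j.ker := Nat.mul_le_mul le_rfl hcap
    _ = Nat.card (ClassGroup (𝓞 K)) := by
        rw [Subgroup.card_eq_card_quotient_mul_card_subgroup j.ker,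
          Nat.card_congr (QuotientGroup.quotientKerEquivRange j).toEquiv]

end Quadratic

end Fermat.Agent.Root.ClassField
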