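import Fermat.Agent.Root.ClassField.Crossing
import Fermat.Agent.Root.ClassField.Ambiguous

/-!
# The Artin map of everywhere unramified cyclic two-power extensions

For a totally complex number field an everywhere unramified homomorphism on `G_K` to `ℤ/2ᵏ`
comes from a character of the class group (`hasArtinMap`), by induction on quadratic steps.
-/

set_option autoImplicit false

noncomputable section

namespace Fermat.Agent.Root.ClassField

open NumberField IntermediateField Module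
open scoped Pointwise nonZeroDivisors

local notation "ℚbar" => AlgebraicClosure ℚ
local notation "Γ" => AlgebraicClosure ℚ ≃ₐ[ℚ] AlgebraicClosure ℚ

variable {n : ℕ}

/-- `f` comes from a character of the class group. -/
def HasArtinMap (K : IntermediateField ℚ ℚbar) [NumberField K] (f : Γ → ZMod n) : Prop :=
  ∃ (S : Finset ℕ) (art : ClassGroup (𝓞 K) →* Multiplicative (ZMod n)),
    ∀ P : Place K S, art (cls P) = Multiplicative.ofAdd (f P.φ)

/-- A conjugate place. -/
def Place.conj {L : IntermediateField ℚ ℚbar} {S : Finset ℕ} (P : Place L S) (g : Γ)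
    (hg : ∀ σ ∈ L.fixingSubgroup, g * σ * g⁻¹ ∈ L.fixingSubgroup) : Place L S :=
  ⟨g • P.A, P.p, g * P.φ * g⁻¹, P.prime, P.notMem, Gal.liesOverPrime_smul g P.lies,
    (Gal.isFrobeniusAt_smul_iff g P.φ P.A P.p).2 P.frob, hg _ P.mem⟩

theorem mem_primeBelow_smul {L : IntermediateField ℚ ℚbar} {A : ValuationSubring ℚbar} {g : Γ}
    {x : 𝓞 L} : x ∈ Gal.primeBelow L (g • A) ↔ g.symm ((x : L) : ℚbar) ∈ A.nonunits := by
  rw [Gal.mem_primeBelow, Gal.mem_nonunits_smul_iff]

/-- The double of `halfVal a` is `a`, for even `a`. -/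
def halfVal {k : ℕ} (a : ZMod (2 ^ (k + 1))) : ZMod (2 ^ k) := ((a.val / 2 : ℕ) : ZMod (2 ^ k))

/-- The parity. -/
def parity (k : ℕ) : ZMod (2 ^ (k + 1)) →+* ZMod 2 :=
  ZMod.castHom (dvd_pow_self 2 k.succ_ne_zero) (ZMod 2)

theorem parity_eq_zero {k : ℕ} {a : ZMod (2 ^ (k + 1))} : parity k a = 0 ↔ 2 ∣ a.val := by
  rw [← ZMod.natCast_eq_zero_iff, parity, ZMod.castHom_apply, ZMod.cast_eq_val]

theorem halfVal_natCast (k t : ℕ) :
    halfVal ((2 * t : ℕ) : ZMod (2 ^ (k + 1))) = (t : ZMod (2 ^ k)) := by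
  rw [halfVal, ZMod.val_natCast, pow_succ', Nat.mul_mod_mul_left,
    Nat.mul_div_cancel_left _ two_pos, ZMod.natCast_mod]

theorem halfVal_add {k : ℕ} {a b : ZMod (2 ^ (k + 1))} (ha : parity k a = 0) (hb : parity k b = 0) :
    halfVal (a + b) = halfVal a + halfVal b := by
  rw [parity_eq_zero] at ha hb
  obtain ⟨t, ht⟩ := ha
  obtain ⟨u, hu⟩ := hb
  have ha' : a = ((2 * t : ℕ) : ZMod (2 ^ (k + 1))) := by rw [← ht, ZMod.natCast_zmod_val]
  have hb' : b = ((2 * u : ℕ) : ZMod (2 ^ (k + 1))) := by rw [← hu, ZMod.natCast_zmod_val]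
  rw [ha', hb', ← Nat.cast_add, ← mul_add, halfVal_natCast, halfVal_natCast, halfVal_natCast,
    Nat.cast_add]

/-- A quadratic step: the norm and the ambiguous classes. -/
theorem quadratic_step {k : ℕ} {K : IntermediateField ℚ ℚbar} [NumberField K] [IsTotallyComplex K]
    {f : Γ → ZMod (2 ^ (k + 1))} (hf : IsUnrHom K f) {g : Γ} (hg : g ∈ K.fixingSubgroup)
    (hfg : f g = 1) (ih : ∀ (K' : IntermediateField ℚ ℚbar) [NumberField K'] [IsTotallyComplex K']
      (f' : Γ → ZMod (2 ^ k)), IsUnrHom K' f' → (∃ σ ∈ K'.fixingSubgroup, f' σ = 1) →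
        HasArtinMap K' f') :
    HasArtinMap K f := by
  -- the quadratic field
  let f₂ : Γ → ZMod 2 := fun σ => parity k (f σ)
  have hf₂ : IsUnrHom K f₂ :=
    { map_mul := fun σ hσ τ hτ => by simp only [f₂, hf.map_mul σ hσ τ hτ, map_add]
      level := by
        obtain ⟨M, hM, hMf⟩ := hf.level
        exact ⟨M, hM, fun σ hσ hσM => by simp only [f₂, hMf σ hσ hσM, map_zero]⟩
      unr := fun q hq A hA σ hσ hσK => by simp only [f₂, hf.unr q hq A hA σ hσ hσK, map_zero] }
  have := hf₂.toIsLevelHom.finiteDimensional_kernelField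
  set K₁ := hf₂.toIsLevelHom.kernelField with hK₁
  have : NumberField K₁ := ⟨⟩
  have hle : K ≤ K₁ := hf₂.toIsLevelHom.le_kernelField
  have hmem : ∀ {σ : Γ}, σ ∈ K₁.fixingSubgroup ↔ σ ∈ K.fixingSubgroup ∧ parity k (f σ) = 0 :=
    fun {σ} => hf₂.toIsLevelHom.mem_fixingSubgroup_kernelField
  have hg₂ : f₂ g = 1 := by simp only [f₂, hfg, map_one]
  let : Algebra K K₁ := (IntermediateField.inclusion hle).toAlgebra
  have : IsScalarTower ℚ K K₁ := IsScalarTower.of_algebraMap_eq fun x => rfl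
  have : IsTotallyComplex K₁ := isTotallyComplex_of_algebra K K₁
  have hrange : hf₂.toIsLevelHom.toHom.range = ⊤ := by
    refine top_le_iff.1 fun y _ => ?_
    obtain ⟨y, rfl⟩ : ∃ t : ZMod 2, Multiplicative.ofAdd t = y := ⟨_, ofAdd_toAdd y⟩
    have h01 : y = 0 ∨ y = 1 := (by decide : ∀ t : ZMod 2, t = 0 ∨ t = 1) y
    rcases h01 with rfl | rfl
    · exact ⟨1, map_one _⟩
    · exact ⟨⟨g, hg⟩, congrArg Multiplicative.ofAdd hg₂⟩
  have hrel : K₁.fixingSubgroup.relIndex K.fixingSubgroup = 2 := by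
    have h1 : K₁.fixingSubgroup.subgroupOf K.fixingSubgroup = hf₂.toIsLevelHom.toHom.ker := by
      ext σ
      show (σ : Γ) ∈ K₁.fixingSubgroup ↔ Multiplicative.ofAdd (f₂ σ) = 1
      rw [hmem]
      exact ⟨fun h => by show Multiplicative.ofAdd (parity k (f σ)) = 1; rw [h.2]; rfl,
        fun h => ⟨σ.2, Multiplicative.ofAdd.injective h⟩⟩
    rw [Subgroup.relIndex, h1, Subgroup.index_ker, hrange, Subgroup.card_top]
    exact (Nat.card_congr Multiplicative.ofAdd).symm.trans (Nat.card_zmod 2)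
  have hdeg : finrank K K₁ = 2 := by
    have hK : Module.finrank ℚ K = K.fixingSubgroup.index :=
      IntermediateField.finrank_eq_fixingSubgroup_index ℚbar K
    have hL : Module.finrank ℚ K₁ = K₁.fixingSubgroup.index :=
      IntermediateField.finrank_eq_fixingSubgroup_index ℚbar K₁
    have h1 := Subgroup.relIndex_mul_index (IntermediateField.fixingSubgroup_le hle)
    have h2 := Module.finrank_mul_finrank ℚ K K₁
    rw [← hK, ← hL, ← h2, hrel, mul_comm 2] at h1
    exact (Nat.eq_of_mul_eq_mul_left Module.finrank_pos h1).symm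
  -- conjugation
  have hgnorm : ∀ σ ∈ K₁.fixingSubgroup, g * σ * g⁻¹ ∈ K₁.fixingSubgroup := fun σ hσ => by
    rw [hmem] at hσ ⊢
    exact ⟨mul_mem (mul_mem hg hσ.1) (inv_mem hg), by rw [hf.map_conj hg hσ.1]; exact hσ.2⟩
  have hgnorm' : ∀ σ ∈ K₁.fixingSubgroup, g⁻¹ * σ * g ∈ K₁.fixingSubgroup := fun σ hσ => by
    rw [hmem] at hσ ⊢
    have h1 := hf.map_conj (inv_mem hg) hσ.1
    rw [inv_inv] at h1
    exact ⟨mul_mem (mul_mem (inv_mem hg) hσ.1) hg, by rw [h1]; exact hσ.2⟩
  have hgK₁ : ∀ x ∈ K₁, g x ∈ K₁ := fun x hx => by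
    rw [← InfiniteGalois.fixedField_fixingSubgroup K₁]
    intro w
    have h1 := fixingSubgroup_apply (hgnorm' w.1 w.2) hx
    have h2 := congrArg g h1
    simp only [AlgEquiv.mul_apply] at h2
    rw [AlgEquiv.aut_inv, AlgEquiv.apply_symm_apply] at h2
    exact h2
  let σ₀ : K₁ →ₐ[K] K₁ :=
    { toFun := fun x => ⟨g (x : ℚbar), hgK₁ x x.2⟩
      map_one' := Subtype.ext (map_one g)
      map_mul' := fun x y => Subtype.ext (map_mul g _ _)
      map_zero' := Subtype.ext (map_zero g)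
      map_add' := fun x y => Subtype.ext (map_add g _ _)
      commutes' := fun r => Subtype.ext (fixingSubgroup_apply hg r.2) }
  let σ : K₁ ≃ₐ[K] K₁ := AlgEquiv.ofBijective σ₀ (Algebra.IsAlgebraic.algHom_bijective σ₀)
  have hσval : ∀ x : K₁, ((σ x : K₁) : ℚbar) = g (x : ℚbar) := fun x => rfl
  have hσ : σ ≠ 1 := fun e => by
    have h1 : g ∈ K₁.fixingSubgroup := (mem_fixingSubgroup_iff Γ).2 fun x hx =>
      congrArg Subtype.val (DFunLike.congr_fun e (⟨x, hx⟩ : K₁))
    exact one_ne_zero (α := ZMod 2) (hg₂.symm.trans (hmem.1 h1).2)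
  have : IsGalois K K₁ := by
    refine IsGalois.of_card_aut_eq_finrank K K₁ (le_antisymm ?_ ?_)
    · rw [Nat.card_eq_fintype_card]
      exact AlgEquiv.card_le
    · rw [hdeg, Nat.card_eq_fintype_card]
      exact Fintype.one_lt_card_iff.2 ⟨σ, 1, hσ⟩
  -- unramified
  have hram : ∀ P : Ideal (𝓞 K₁), P.IsPrime → P ≠ ⊥ →
      ¬ P ^ 2 ∣ (P.under (𝓞 K)).map (algebraMap (𝓞 K) (𝓞 K₁)) := by
    intro P hP hP0 hdvd
    have := hP
    have : P.IsMaximal := hP.isMaximal hP0
    have : (P.under (𝓞 K)).IsMaximal := Ideal.IsMaximal.under (𝓞 K) P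
    set P₀ := P.under (𝓞 K)
    set E := P₀.map (algebraMap (𝓞 K) (𝓞 K₁))
    have hP00 : P₀ ≠ ⊥ := fun e => hP0 (Ideal.eq_bot_of_comap_eq_bot e)
    have hNE : Ideal.absNorm E = Ideal.absNorm P₀ ^ 2 := by
      rw [Ideal.absNorm_algebraMap, ← IsFractionRing.finrank_eq (𝓞 K) K (𝓞 K₁) K₁, hdeg]
    set P' := P.map (intAut σ)
    have hNP' : Ideal.absNorm P' = Ideal.absNorm P := by
      rw [Ideal.absNorm_apply, Ideal.absNorm_apply, Submodule.cardQuot_apply,
        Submodule.cardQuot_apply]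
      exact (Nat.card_congr (Ideal.quotientEquiv P P' (intAut σ) rfl).toEquiv).symm
    have hP'p : P'.IsPrime := Ideal.map_isPrime_of_equiv (intAut σ)
    have hPd : Ideal.absNorm P₀ ∣ Ideal.absNorm P := by
      obtain ⟨r, hr⟩ := Ideal.exists_relNorm_eq_pow_of_isPrime P P₀
      have h2 := congrArg Ideal.absNorm hr
      rw [Ideal.absNorm_relNorm, map_pow] at h2
      rcases Nat.eq_zero_or_pos r with rfl | hr0
      · rw [pow_zero, Ideal.absNorm_eq_one_iff] at h2
        exact absurd h2 hP.ne_top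
      · rw [h2]; exact dvd_pow_self _ hr0.ne'
    have hN0 : 1 < Ideal.absNorm P₀ := Nat.one_lt_iff_ne_zero_and_ne_one.2
      ⟨Ideal.absNorm_eq_zero_iff.not.2 hP00,
        fun e => Ideal.IsMaximal.ne_top (I := P₀) inferInstance (Ideal.absNorm_eq_one_iff.1 e)⟩
    have hNP : 0 < Ideal.absNorm P := Nat.pos_of_ne_zero (Ideal.absNorm_eq_zero_iff.not.2 hP0)
    have hNeq : Ideal.absNorm P = Ideal.absNorm P₀ := by
      refine Nat.dvd_antisymm ?_ hPd
      have h1 := Ideal.absNorm_dvd_absNorm_of_le (Ideal.le_of_dvd hdvd)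
      rwa [map_pow, hNE, Nat.pow_dvd_pow_iff two_ne_zero] at h1
    have hfix : P' = P := by
      by_contra hne
      have hEinv : E.map (intAut σ) = E := by
        refine (Ideal.map_map (algebraMap (𝓞 K) (𝓞 K₁)) (intAut σ : 𝓞 K₁ →+* 𝓞 K₁)).trans ?_
        exact congrArg (fun f => Ideal.map f P₀) (RingHom.ext fun x => intAut_algebraMap σ x)
      have hP'd : P' ∣ E := by
        rw [Ideal.dvd_iff_le, ← hEinv]
        exact Ideal.map_mono (Ideal.map_comap_le)
      have hP'0 : P' ≠ ⊥ := (Ideal.map_eq_bot_iff_of_injective (intAut σ).injective).not.2 hP0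
      have hcop : ¬ P' ∣ P ^ 2 := fun h => hne ((hP.isMaximal hP0).eq_of_le hP'p.ne_top
        (Ideal.le_of_dvd ((Ideal.prime_of_isPrime hP'0 hP'p).dvd_of_dvd_pow h))).symm
      obtain ⟨R, hR⟩ := hdvd
      have hR' : P' ∣ R := ((Ideal.prime_of_isPrime hP'0 hP'p).dvd_or_dvd (hR ▸ hP'd)).resolve_left
        hcop
      have h3 : P ^ 2 * P' ∣ E := hR ▸ mul_dvd_mul_left _ hR'
      have h4 := Ideal.absNorm_dvd_absNorm_of_le (Ideal.le_of_dvd h3)
      rw [map_mul, map_pow, hNE, hNP', hNeq, ← pow_succ, Nat.pow_dvd_pow_iff_le_right hN0] at h4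
      omega
    obtain ⟨q, A, hq, hA, hAP⟩ := exists_primeBelow K₁ P
    -- `g` acts trivially modulo `A`
    have hsurj : ∀ x : 𝓞 K₁, ∃ a : 𝓞 K, x - algebraMap (𝓞 K) (𝓞 K₁) a ∈ P := by
      have : Finite (𝓞 K₁ ⧸ P) :=
        (Ideal.absNorm_ne_zero_iff P).1 hNP.ne'
      have hb : Function.Bijective (Ideal.quotientMap P (algebraMap (𝓞 K) (𝓞 K₁)) le_rfl) := by
        refine (Nat.bijective_iff_injective_and_card _).2 ⟨Ideal.quotientMap_injective, ?_⟩
        rw [← Submodule.cardQuot_apply, ← Submodule.cardQuot_apply]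
        exact hNeq.symm
      intro x
      obtain ⟨a, ha⟩ := hb.2 (Ideal.Quotient.mk P x)
      obtain ⟨a, rfl⟩ := Ideal.Quotient.mk_surjective a
      rw [Ideal.quotientMap_mk, eq_comm, Ideal.Quotient.eq] at ha
      exact ⟨a, ha⟩
    obtain ⟨i, hi, hig⟩ := Gal.exists_inertia_eqOn K₁ A g fun x hx hint => by
      set x' : 𝓞 K₁ := ⟨⟨x, hx⟩, (isIntegral_algebraMap_iff (algebraMap K₁ ℚbar).injective).1 hint⟩
      obtain ⟨a, ha⟩ := hsurj x'
      have ha' : intAut σ (x' - algebraMap (𝓞 K) (𝓞 K₁) a) ∈ P := by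
        have := Ideal.mem_map_of_mem (intAut σ : 𝓞 K₁ →+* 𝓞 K₁) ha
        exact hfix ▸ this
      rw [map_sub, intAut_algebraMap] at ha'
      have hmem' : intAut σ x' - x' ∈ Gal.primeBelow K₁ A := by
        rw [hAP]
        simpa using sub_mem ha' ha
      exact (Gal.mem_primeBelow K₁).1 hmem'
    have hiK : i ∈ K.fixingSubgroup := (mem_fixingSubgroup_iff Γ).2 fun x hx =>
      (hig x (hle hx)).trans (fixingSubgroup_apply hg hx)
    have hi₁ : i ∈ K₁.fixingSubgroup :=
      hmem.2 ⟨hiK, by rw [hf.unr q hq A hA i hi hiK, map_zero]⟩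
    exact hσ (AlgEquiv.ext fun x => Subtype.ext
      ((hig x x.2).symm.trans (fixingSubgroup_apply hi₁ x.2)))
  -- the restricted homomorphism
  let f₁ : Γ → ZMod (2 ^ k) := fun τ => halfVal (f τ)
  have hf₁ : IsUnrHom K₁ f₁ :=
    { map_mul := fun τ hτ υ hυ => by
        obtain ⟨hτ1, hτ2⟩ := hmem.1 hτ
        obtain ⟨hυ1, hυ2⟩ := hmem.1 hυ
        simp only [f₁]
        rw [hf.map_mul τ hτ1 υ hυ1, halfVal_add hτ2 hυ2]
      level := by
        obtain ⟨M, hM, hMf⟩ := hf.level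
        exact ⟨M, hM, fun τ hτ hτM => by
          simp [f₁, hMf τ (hmem.1 hτ).1 hτM, halfVal]⟩
      unr := fun q hq A hA τ hτ hτK => by
        simp [f₁, hf.unr q hq A hA τ hτ (hmem.1 hτK).1, halfVal] }
  have hone₁ : ∃ τ ∈ K₁.fixingSubgroup, f₁ τ = 1 := by
    have h2 : f (g ^ 2) = ((2 * 1 : ℕ) : ZMod (2 ^ (k + 1))) := by
      rw [hf.map_pow hg, hfg, mul_one, mul_one]
    refine ⟨g ^ 2, hmem.2 ⟨pow_mem hg 2, ?_⟩, ?_⟩
    · rw [h2, map_natCast]; exact ZMod.natCast_self 2
    · simp only [f₁, h2, halfVal_natCast, Nat.cast_one]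
  obtain ⟨S₁, art₁, hart₁⟩ := ih K₁ f₁ hf₁ hone₁
  obtain ⟨S₀, hS₀⟩ := exists_quot_hom hf ⟨g, hg, hfg⟩
  set S := S₀ ∪ S₁
  set H := splitClasses K f S
  obtain ⟨Φ, hΦ⟩ := hS₀ S Finset.subset_union_left
  set N := normLE (L := K₁) hle with hNdef
  -- the Galois action
  set γ₀ := clAct K σ
  let γ : ClassGroup (𝓞 K₁) →* ClassGroup (𝓞 K₁) :=
    MonoidHom.mk' (fun C => γ₀ C / C) fun a b => by simp only [map_mul, mul_div_mul_comm]
  have hγcls : ∀ P : Place K₁ S, γ₀ (cls P) = cls (P.conj g hgnorm) := by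
    intro P
    refine clAct_mk0 σ _ _ ?_
    show Gal.primeBelow K₁ (g • P.A) = _
    ext x
    rw [mem_primeBelow_smul]
    constructor
    · intro hx
      obtain ⟨y, rfl⟩ := (intAut σ).surjective x
      refine Ideal.mem_map_of_mem _ ((Gal.mem_primeBelow K₁).2 ?_)
      have : g.symm (((intAut σ y : 𝓞 K₁) : K₁) : ℚbar) = ((y : K₁) : ℚbar) :=
        g.symm_apply_apply _
      rwa [this] at hx
    · intro hx
      obtain ⟨y, hy, rfl⟩ := (Ideal.mem_map_iff_of_surjective _ (intAut σ).surjective).1 hx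
      rw [show g.symm (((intAut σ y : 𝓞 K₁) : K₁) : ℚbar) = ((y : K₁) : ℚbar) from
        g.symm_apply_apply _]
      exact (Gal.mem_primeBelow K₁).1 hy
  have hNconj : ∀ P : Place K₁ S, N (cls (P.conj g hgnorm)) = N (cls P) := by
    intro P
    rw [hNdef, normLE_cls, normLE_cls]
    refine congrArg ClassGroup.mk0 (Subtype.ext ?_)
    show Gal.primeBelow K (g • P.A) = Gal.primeBelow K P.A
    ext x
    rw [mem_primeBelow_smul, Gal.mem_primeBelow]
    have : g.symm ((x : K) : ℚbar) = ((x : K) : ℚbar) :=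
      fixingSubgroup_apply (inv_mem hg) (x : K).2
    rw [this]
  have hS₁le : S₁ ⊆ S := Finset.subset_union_right
  have hgen : ∀ φ φ' : ClassGroup (𝓞 K₁) →* ClassGroup (𝓞 K),
      (∀ P : Place K₁ S, φ (cls P) = φ' (cls P)) → φ = φ' := fun φ φ' h =>
    MonoidHom.eq_of_eqOn_dense (closure_range_cls K₁ S) (by rintro _ ⟨P, rfl⟩; exact h P)
  have hγN : γ.range ≤ N.ker := by
    rintro _ ⟨C, rfl⟩
    rw [MonoidHom.mem_ker]
    show N (γ₀ C / C) = 1
    rw [map_div, div_eq_one]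
    exact DFunLike.congr_fun (hgen (N.comp γ₀) N fun P => by
      rw [MonoidHom.comp_apply, hγcls, hNconj]) C
  have hγart : γ.range ≤ art₁.ker := by
    rintro _ ⟨C, rfl⟩
    rw [MonoidHom.mem_ker]
    show art₁ (γ₀ C / C) = 1
    rw [map_div, div_eq_one]
    refine DFunLike.congr_fun (MonoidHom.eq_of_eqOn_dense (closure_range_cls K₁ S)
      (f := art₁.comp γ₀) (g := art₁) ?_) C
    rintro _ ⟨P, rfl⟩
    rw [MonoidHom.comp_apply, hγcls]
    refine (hart₁ ((P.conj g hgnorm).weaken hS₁le)).trans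
      (Eq.trans ?_ (hart₁ (P.weaken hS₁le)).symm)
    show Multiplicative.ofAdd (halfVal (f (g * P.φ * g⁻¹))) = Multiplicative.ofAdd (halfVal (f P.φ))
    rw [hf.map_conj hg (hmem.1 P.mem).1]
  set H₂ := splitClasses K f₂ S with hH₂
  have hNrange : N.range = H₂ := by
    rw [MonoidHom.range_eq_map, ← closure_range_cls K₁ S, MonoidHom.map_closure, hH₂,
      splitClasses]
    congr 1
    ext C
    constructor
    · rintro ⟨_, ⟨P, rfl⟩, rfl⟩
      exact ⟨P.restrict hle, (hmem.1 P.mem).2, (normLE_cls hle P).symm⟩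
    · rintro ⟨P, hP, rfl⟩
      let P' : Place K₁ S := { P with mem := hmem.2 ⟨P.mem, hP⟩ }
      exact ⟨cls P', ⟨P', rfl⟩, normLE_cls hle P'⟩
  have hidx : H₂.index ≤ 2 := by
    refine (hf₂.toIsLevelHom.index_splitClasses_le S).trans (le_of_eq ?_)
    rw [hrange, Subgroup.card_top]
    exact (Nat.card_congr Multiplicative.ofAdd).symm.trans (Nat.card_zmod 2)
  -- counting
  have hamb := two_mul_card_fixed_le hdeg hσ hram
  have hγker : Nat.card γ.ker = Nat.card {C : ClassGroup (𝓞 K₁) // γ₀ C = C} :=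
    Nat.card_congr (Equiv.subtypeEquivRight fun C => by
      rw [MonoidHom.mem_ker]; exact div_eq_one)
  have hcγ : Nat.card (ClassGroup (𝓞 K₁)) = Nat.card γ.range * Nat.card γ.ker := by
    rw [Subgroup.card_eq_card_quotient_mul_card_subgroup γ.ker,
      Nat.card_congr (QuotientGroup.quotientKerEquivRange γ).toEquiv]
  have hcN : Nat.card (ClassGroup (𝓞 K₁)) = Nat.card H₂ * Nat.card N.ker := by
    rw [Subgroup.card_eq_card_quotient_mul_card_subgroup N.ker,
      Nat.card_congr (QuotientGroup.quotientKerEquivRange N).toEquiv, hNrange]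
  have hcK : Nat.card (ClassGroup (𝓞 K)) = H₂.index * Nat.card H₂ := by
    rw [mul_comm, Subgroup.card_mul_index]
  have hγle : Nat.card γ.range ≤ Nat.card N.ker := Subgroup.card_le_of_le hγN
  have hpos1 : 0 < Nat.card γ.range := Nat.card_pos
  have hpos2 : 0 < Nat.card H₂ := Nat.card_pos
  rw [← hγker] at hamb
  have hi2 : H₂.index = 2 := by
    have h1 : Nat.card H₂ * Nat.card N.ker ≤ Nat.card N.ker * Nat.card γ.ker := by
      rw [← hcN, hcγ]; exact Nat.mul_le_mul hγle le_rfl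
    have h2 : Nat.card H₂ ≤ Nat.card γ.ker :=
      Nat.le_of_mul_le_mul_right (by linarith) (Nat.card_pos (α := N.ker))
    nlinarith
  have hkerN : N.ker = γ.range := by
    refine (Subgroup.eq_of_le_of_card_ge hγN ?_).symm
    have h1 : Nat.card γ.ker ≤ Nat.card H₂ := by rw [hcK, hi2] at hamb; omega
    have h2 : Nat.card H₂ * Nat.card N.ker ≤ Nat.card H₂ * Nat.card γ.range := by
      rw [← hcN, hcγ, mul_comm]; exact Nat.mul_le_mul h1 le_rfl
    exact Nat.le_of_mul_le_mul_left h2 hpos2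
  -- injectivity
  have hΦinj : Function.Injective Φ := by
    rw [injective_iff_map_eq_one]
    intro y hy
    by_contra hy1
    set a := Multiplicative.toAdd y with ha
    have ha0 : a ≠ 0 := fun e => hy1 (by rw [← ofAdd_toAdd y, ← ha, e]; rfl)
    -- the element of order two is killed
    have htop : Φ (Multiplicative.ofAdd ((2 ^ k : ℕ) : ZMod (2 ^ (k + 1)))) = 1 := by
      have hv : a.val ≠ 0 := fun e => ha0 ((ZMod.val_eq_zero a).1 e)
      obtain ⟨j, m, hm, hjm⟩ := Nat.exists_eq_two_pow_mul_odd hv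
      have hjk : j ≤ k := by
        have h1 := ZMod.val_lt a
        have h2 : 2 ^ j ≤ a.val := hjm ▸ Nat.le_mul_of_pos_right _ hm.pos
        exact Nat.lt_succ_iff.1 ((Nat.pow_lt_pow_iff_right one_lt_two).1 (lt_of_le_of_lt h2 h1))
      have heq : ((2 ^ k : ℕ) : ZMod (2 ^ (k + 1))) = (2 ^ (k - j)) • a := by
        rw [nsmul_eq_mul, ← ZMod.natCast_zmod_val a, ← Nat.cast_mul,
          ZMod.natCast_eq_natCast_iff]
        have h3 : 2 ^ (k - j) * a.val = 2 ^ k * m := by
          rw [hjm, ← mul_assoc, ← pow_add, Nat.sub_add_cancel hjk]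
        rw [h3]
        obtain ⟨t, rfl⟩ := hm
        refine (Nat.modEq_iff_dvd' (Nat.le_mul_of_pos_right _ (by omega))).2 ⟨t, ?_⟩
        rw [Nat.mul_add, mul_one, Nat.add_sub_cancel, pow_succ]
        ring
      rw [heq, ofAdd_nsmul, map_pow, ha, ofAdd_toAdd, hy, one_pow]
    rcases Nat.eq_zero_or_pos k with hk | hk
    · subst hk
      have hΦ1 : ∀ z, Φ z = 1 := fun z => by
        obtain ⟨t, rfl⟩ : ∃ t, Multiplicative.ofAdd t = z := ⟨_, ofAdd_toAdd z⟩
        rw [← ZMod.natCast_zmod_val t, ← mul_one t.val, Nat.cast_mul, ← nsmul_eq_mul, ofAdd_nsmul,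
          map_pow]
        have : Φ (Multiplicative.ofAdd ((1 : ℕ) : ZMod (2 ^ (0 + 1)))) = 1 := htop
        rw [this, one_pow]
      have hH : H = ⊤ := by
        rw [eq_top_iff, ← closure_range_cls K S, Subgroup.closure_le]
        rintro _ ⟨P, rfl⟩
        exact (QuotientGroup.eq_one_iff _).1
          ((hΦ P).symm.trans (hΦ1 (Multiplicative.ofAdd (f P.φ))))
      have hle2 : H ≤ H₂ := by
        refine Subgroup.closure_mono ?_
        rintro C ⟨P, hP, rfl⟩
        exact ⟨P, by simp only [f₂, hP, map_zero], rfl⟩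
      rw [hH, top_le_iff] at hle2
      rw [hle2, Subgroup.index_top] at hi2
      omega
    · obtain ⟨P, i, j, hi, hj⟩ := hf.toIsLevelHom.exists_place S (pow_mem hg (2 ^ k))
      rw [hf.map_pow hg, hfg, mul_one] at hi hj
      set t : ZMod (2 ^ (k + 1)) := ((2 ^ k : ℕ) : ZMod (2 ^ (k + 1))) with ht
      have ht2 : (2 : ZMod (2 ^ (k + 1))) * t = 0 := by
        rw [ht, show (2 : ZMod (2 ^ (k + 1))) = ((2 : ℕ) : ZMod (2 ^ (k + 1)))
          from Nat.cast_ofNat.symm,
          ← Nat.cast_mul, ← pow_succ', ZMod.natCast_self]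
      have ht0 : t ≠ 0 := by
        rw [ht, Ne, ZMod.natCast_eq_zero_iff, Nat.pow_dvd_pow_iff_le_right one_lt_two]
        omega
      have hfP : f P.φ = t := by
        rcases Nat.even_or_odd j with ⟨c, rfl⟩ | ⟨c, rfl⟩
        · exfalso
          apply ht0
          rw [hi, hj, Nat.cast_add]
          linear_combination ((i : ZMod (2 ^ (k + 1))) * c) * ht2
        · rw [hj, Nat.cast_add, Nat.cast_mul, Nat.cast_two, Nat.cast_one]
          linear_combination (c : ZMod (2 ^ (k + 1))) * ht2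
      have htwo : t = ((2 * 2 ^ (k - 1) : ℕ) : ZMod (2 ^ (k + 1))) := by
        rw [ht, ← pow_succ', Nat.sub_add_cancel hk]
      have hP₁ : P.φ ∈ K₁.fixingSubgroup := hmem.2 ⟨P.mem, by
        rw [hfP, htwo, map_natCast, Nat.cast_mul, ZMod.natCast_self, zero_mul]⟩
      let P' : Place K₁ S := { P with mem := hP₁ }
      have hPH : cls P ∈ H := (QuotientGroup.eq_one_iff _).1 (by rw [← hΦ, hfP]; exact htop)
      have hHle : H ≤ art₁.ker.map N := by
        refine (Subgroup.closure_le _).2 ?_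
        rintro C ⟨R, hR, rfl⟩
        let R' : Place K₁ S := { R with mem := hmem.2 ⟨R.mem, by rw [hR, map_zero]⟩ }
        refine ⟨cls R', ?_, normLE_cls hle R'⟩
        rw [SetLike.mem_coe, MonoidHom.mem_ker]
        refine (hart₁ (R'.weaken hS₁le)).trans ?_
        show Multiplicative.ofAdd (halfVal (f R.φ)) = 1
        rw [hR]; simp [halfVal]
      obtain ⟨x, hx, hxP⟩ := hHle hPH
      have hxker : x / cls P' ∈ N.ker := by
        rw [MonoidHom.mem_ker, map_div, hxP, hNdef, normLE_cls]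
        exact div_self' _
      rw [hkerN] at hxker
      have h1 := hγart hxker
      rw [MonoidHom.mem_ker, map_div, div_eq_one] at h1
      rw [MonoidHom.mem_ker.1 hx] at h1
      have h2 := h1.trans (hart₁ (P'.weaken hS₁le))
      have h3 : halfVal (f P.φ) = 0 := (Multiplicative.ofAdd.injective h2).symm
      rw [hfP, htwo, halfVal_natCast, ZMod.natCast_eq_zero_iff,
        Nat.pow_dvd_pow_iff_le_right one_lt_two] at h3
      omega
  have hΦsurj : Function.Surjective Φ := by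
    rw [← MonoidHom.range_eq_top, eq_top_iff]
    intro x _
    obtain ⟨C, rfl⟩ := QuotientGroup.mk_surjective x
    have hC : C ∈ Φ.range.comap (QuotientGroup.mk' H) := by
      refine (Subgroup.closure_le _).2 ?_ ((closure_range_cls K S).symm ▸ Subgroup.mem_top C)
      rintro _ ⟨P, rfl⟩
      exact ⟨_, hΦ P⟩
    exact hC
  refine ⟨S, (MulEquiv.ofBijective Φ ⟨hΦinj, hΦsurj⟩).symm.toMonoidHom.comp (QuotientGroup.mk' H),
    fun P => ?_⟩
  show (MulEquiv.ofBijective Φ ⟨hΦinj, hΦsurj⟩).symm (QuotientGroup.mk (cls P)) = _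
  rw [MulEquiv.symm_apply_eq]
  exact (hΦ P).symm

/-- **Artin reciprocity** for everywhere unramified cyclic two-power extensions of a totally
complex field. -/
theorem hasArtinMap {k : ℕ} : ∀ {K : IntermediateField ℚ ℚbar} [NumberField K] [IsTotallyComplex K]
    {f : Γ → ZMod (2 ^ k)}, IsUnrHom K f → (∃ g ∈ K.fixingSubgroup, f g = 1) → HasArtinMap K f := by
  induction k with
  | zero =>
    intro K _ _ f _ _
    have : Subsingleton (ZMod (2 ^ 0)) := ZMod.subsingleton_iff.2 (pow_zero 2)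
    exact ⟨∅, 1, fun P => congrArg Multiplicative.ofAdd (Subsingleton.elim _ _)⟩
  | succ k ih =>
    intro K _ _ f hf ⟨g, hg, hfg⟩
    exact quadratic_step hf hg hfg fun K' _ _ f' hf' h' => ih hf' h'

end Fermat.Agent.Root.ClassField
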