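import Fermat.Agent.Root.ClassField.Artin

/-!
# Abelian everywhere unramified two-power quotients of `G_K` are bounded by the class group

The order of a finite everywhere unramified abelian two-power quotient of `G_K` divides the class
number of the totally complex field `K` (`card_dvd_classNumber`).
-/

set_option autoImplicit false

noncomputable section

namespace Fermat.Agent.Root.ClassField

open NumberField IntermediateField
open scoped Pointwise

local notation "ℚbar" => AlgebraicClosure ℚ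
local notation "Γ" => AlgebraicClosure ℚ ≃ₐ[ℚ] AlgebraicClosure ℚ

/-- A finite abelian two-group is a product of cyclic two-groups. -/
theorem exists_equiv_prod_two_pow (G : Type) [CommGroup G] [Finite G] (hG : IsPGroup 2 G) :
    ∃ (ι : Type) (_ : Fintype ι) (e : ι → ℕ),
      Nonempty (G ≃* ((i : ι) → Multiplicative (ZMod (2 ^ e i)))) := by
  classical
  obtain ⟨ι, _, n, -, ⟨E⟩⟩ := CommGroup.equiv_prod_multiplicative_zmod_of_finite G
  obtain ⟨m, hm⟩ := IsPGroup.iff_card.1 hG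
  have h : ∀ i, ∃ e : ℕ, n i = 2 ^ e := fun i => by
    have hd : n i ∣ 2 ^ m := by
      rw [← hm, Nat.card_congr E.toEquiv, Nat.card_pi]
      refine Dvd.dvd.trans (dvd_of_eq ?_) (Finset.dvd_prod_of_mem _ (Finset.mem_univ i))
      rw [Nat.card_congr Multiplicative.toAdd, Nat.card_zmod]
    obtain ⟨e, -, he⟩ := (Nat.dvd_prime_pow Nat.prime_two).1 hd
    exact ⟨e, he⟩
  choose e he using h
  exact ⟨ι, inferInstance, e, ⟨E.trans (MulEquiv.piCongrRight fun i =>
    AddEquiv.toMultiplicative (ZMod.ringEquivCongr (he i)).toAddEquiv)⟩⟩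

/-- A cyclic everywhere unramified two-power character comes from the class group. -/
theorem hasArtinMap_extend {k : ℕ} {K : IntermediateField ℚ ℚbar} [NumberField K]
    [IsTotallyComplex K] (θ : K.fixingSubgroup →* Multiplicative (ZMod (2 ^ k)))
    (hsurj : Function.Surjective θ)
    (hlevel : ∃ M : IntermediateField ℚ ℚbar, FiniteDimensional ℚ M ∧
      ∀ σ : K.fixingSubgroup, (σ : Γ) ∈ M.fixingSubgroup → θ σ = 1)
    (hunr : ∀ q : ℕ, q.Prime → ∀ A : ValuationSubring ℚbar, A.LiesOverPrime q →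
      ∀ σ : K.fixingSubgroup, (σ : Γ) ∈ A.inertiaSubgroupIn ℚ → θ σ = 1) :
    ∃ (S : Finset ℕ) (art : ClassGroup (𝓞 K) →* Multiplicative (ZMod (2 ^ k))),
      ∀ P : Place K S, art (cls P) = θ ⟨P.φ, P.mem⟩ := by
  classical
  set f : Γ → ZMod (2 ^ k) := fun σ =>
    if h : σ ∈ K.fixingSubgroup then Multiplicative.toAdd (θ ⟨σ, h⟩) else 0 with hf
  have hf' : ∀ σ (h : σ ∈ K.fixingSubgroup), f σ = Multiplicative.toAdd (θ ⟨σ, h⟩) :=
    fun σ h => dif_pos h
  have hU : IsUnrHom K f :=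
    { map_mul := fun σ hσ τ hτ => by
        rw [hf' _ hσ, hf' _ hτ, hf' _ (mul_mem hσ hτ), ← toAdd_mul, ← map_mul]; rfl
      level := by
        obtain ⟨M, hM, hMθ⟩ := hlevel
        exact ⟨M, hM, fun σ hσ hσM => by rw [hf' _ hσ, hMθ ⟨σ, hσ⟩ hσM]; rfl⟩
      unr := fun q hq A hA σ hσ hσK => by rw [hf' _ hσK, hunr q hq A hA ⟨σ, hσK⟩ hσ]; rfl }
  obtain ⟨g, hg⟩ := hsurj (Multiplicative.ofAdd 1)
  obtain ⟨S, art, hart⟩ := hasArtinMap hU ⟨g, g.2, by rw [hf' _ g.2]; exact congrArg _ hg⟩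
  exact ⟨S, art, fun P => by rw [hart P, hf' _ P.mem]; rfl⟩

/-- The group of a finite everywhere unramified abelian two-power quotient of `G_K` has order
dividing the class number. -/
theorem card_dvd_classNumber {K : IntermediateField ℚ ℚbar} [NumberField K] [IsTotallyComplex K]
    {G : Type} [CommGroup G] [Finite G] (hG : IsPGroup 2 G) (θ : K.fixingSubgroup →* G)
    (hsurj : Function.Surjective θ)
    (hlevel : ∃ M : IntermediateField ℚ ℚbar, FiniteDimensional ℚ M ∧
      ∀ σ : K.fixingSubgroup, (σ : Γ) ∈ M.fixingSubgroup → θ σ = 1)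
    (hunr : ∀ q : ℕ, q.Prime → ∀ A : ValuationSubring ℚbar, A.LiesOverPrime q →
      ∀ σ : K.fixingSubgroup, (σ : Γ) ∈ A.inertiaSubgroupIn ℚ → θ σ = 1) :
    Nat.card G ∣ Nat.card (ClassGroup (𝓞 K)) := by
  classical
  obtain ⟨ι, _, e, ⟨E⟩⟩ := exists_equiv_prod_two_pow G hG
  obtain ⟨M, hM, hMθ⟩ := hlevel
  have h : ∀ i, ∃ (S : Finset ℕ) (art : ClassGroup (𝓞 K) →* Multiplicative (ZMod (2 ^ e i))),
      ∀ P : Place K S, art (cls P) = E (θ ⟨P.φ, P.mem⟩) i := fun i =>
    hasArtinMap_extend ((Pi.evalMonoidHom _ i).comp (E.toMonoidHom.comp θ))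
      (fun y => by
        obtain ⟨σ, hσ⟩ := hsurj (E.symm (Pi.mulSingle i y))
        exact ⟨σ, by simp [hσ]⟩)
      ⟨M, hM, fun σ hσ => by simp [hMθ σ hσ]⟩
      (fun q hq A hA σ hσ => by simp [hunr q hq A hA σ hσ])
  choose S art hart using h
  set T : Finset ℕ := Finset.univ.biUnion S
  set Art : ClassGroup (𝓞 K) →* G := E.symm.toMonoidHom.comp (MonoidHom.pi art)
  have hArt : ∀ P : Place K T, Art (cls P) = θ ⟨P.φ, P.mem⟩ := fun P => by
    show E.symm (fun i => art i (cls P)) = _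
    rw [MulEquiv.symm_apply_eq]
    funext i
    exact hart i (P.weaken (Finset.subset_biUnion_of_mem S (Finset.mem_univ i)))
  refine Subgroup.card_dvd_of_surjective Art fun y => ?_
  obtain ⟨⟨σ, hσ⟩, rfl⟩ := hsurj y
  obtain ⟨P, i, -, hi, -⟩ := exists_place_eqOn K M T hσ
  refine ⟨cls P ^ i, ?_⟩
  rw [map_pow, hArt, ← map_pow]
  refine (inv_mul_eq_one.1 ?_).symm
  rw [← map_inv, ← map_mul]
  refine hMθ _ ((mem_fixingSubgroup_iff Γ).2 fun x hx => ?_)
  show ((σ⁻¹ * P.φ ^ i : Γ)) x = x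
  rw [AlgEquiv.mul_apply, ← hi x hx]
  exact σ.symm_apply_apply x

end Fermat.Agent.Root.ClassField
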