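import Fermat.Agent.ExtVanish.ClassDensity
import Fermat.Agent.Density.Frobenius

/-!
# Analytic second inequality

A subgroup of the class group of `K` containing the classes below almost all primes of degree one
of an extension `M` has index at most `[M : K]`.
-/

set_option autoImplicit false

noncomputable section

namespace Fermat.Agent.Root.ClassField

open NumberField Filter Topology IntermediateField
open Fermat.Agent.Density Fermat.Agent.ExtVanish
open scoped Classical nonZeroDivisors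

variable {K : Type} [Field K] [NumberField K]
variable {M : Type} [Field M] [NumberField M] [Algebra K M]

/-- A prime of norm `p` lies over a prime of norm `p`, with at most `[M : K]` primes over each. -/
theorem sum_idealWeight_le_mul {s : ℝ} (TM : Finset (Ideal (𝓞 M)))
    (hTM : ∀ Q ∈ TM, (Ideal.absNorm Q).Prime) :
    (∀ P ∈ TM.image (fun Q => Q.under (𝓞 K)), (Ideal.absNorm P).Prime) ∧
    ∑ Q ∈ TM, idealWeight s Q ≤
      Module.finrank K M * ∑ P ∈ TM.image (fun Q => Q.under (𝓞 K)), idealWeight s P := by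
  have hunder : ∀ Q ∈ TM, Ideal.absNorm (Q.under (𝓞 K)) = Ideal.absNorm Q := by
    intro Q hQ
    obtain ⟨p, hp⟩ : ∃ p, Ideal.absNorm Q = p := ⟨_, rfl⟩
    have hpp : p.Prime := hp ▸ hTM Q hQ
    have hQp := isPrime_of_absNorm_eq_prime hpp hp
    have hQ0 := ne_bot_of_absNorm_eq hpp.ne_zero hp
    have : Q.IsMaximal := hQp.isMaximal hQ0
    have : (Q.under (𝓞 K)).IsMaximal := Ideal.IsMaximal.under (𝓞 K) Q
    have h1 := Ideal.relNorm_eq_pow_of_isMaximal Q (Q.under (𝓞 K))
    have h2 := congrArg Ideal.absNorm h1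
    rw [Ideal.absNorm_relNorm, map_pow, hp] at h2
    rw [hp]
    rcases hpp.eq_one_or_self_of_dvd _
      (h2 ▸ dvd_pow_self (Ideal.absNorm (Q.under (𝓞 K))) (Ideal.inertiaDeg_pos Q (𝓞 K)).ne')
      with h | h
    · exact absurd (Ideal.absNorm_eq_one_iff.1 h) (Ideal.IsMaximal.ne_top inferInstance)
    · exact h
  refine ⟨fun P hP => ?_, ?_⟩
  · obtain ⟨Q, hQ, rfl⟩ := Finset.mem_image.1 hP
    rw [hunder Q hQ]
    exact hTM Q hQ
  rw [Finset.mul_sum, ← Finset.sum_fiberwise_of_maps_to (s := TM)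
    (t := TM.image fun Q => Q.under (𝓞 K))
    (g := fun Q => Q.under (𝓞 K)) (fun Q hQ => Finset.mem_image_of_mem _ hQ)]
  refine Finset.sum_le_sum fun P hP => ?_
  set F := TM.filter fun Q => Q.under (𝓞 K) = P
  have hw : ∀ Q ∈ F, idealWeight s Q = idealWeight s P := fun Q hQ => by
    obtain ⟨h1, h2⟩ := Finset.mem_filter.1 hQ
    rw [idealWeight, idealWeight, ← hunder Q h1, h2]
  rw [Finset.sum_congr rfl hw, Finset.sum_const, nsmul_eq_mul]
  refine mul_le_mul_of_nonneg_right ?_ (idealWeight_nonneg _ _)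
  have hdvd : ∏ Q ∈ F, Q ∣ P.map (algebraMap (𝓞 K) (𝓞 M)) := by
    refine Finset.prod_primes_dvd _ (fun Q hQ => ?_) fun Q hQ => ?_
    · obtain ⟨h1, -⟩ := Finset.mem_filter.1 hQ
      exact Ideal.prime_of_isPrime (ne_bot_of_absNorm_eq (hTM Q h1).ne_zero rfl)
        (isPrime_of_absNorm_eq_prime (hTM Q h1) rfl)
    · rw [Ideal.dvd_iff_le, Ideal.map_le_iff_le_comap]
      exact (Finset.mem_filter.1 hQ).2.ge
  have hd := Ideal.absNorm_dvd_absNorm_of_le (Ideal.le_of_dvd hdvd)
  have hNP : (Ideal.absNorm P).Prime := by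
    obtain ⟨Q, hQ, rfl⟩ := Finset.mem_image.1 hP
    rw [hunder Q hQ]
    exact hTM Q hQ
  rw [map_prod, Ideal.absNorm_algebraMap, Finset.prod_congr rfl (g := fun _ => Ideal.absNorm P)
    (fun Q hQ => by
      obtain ⟨h1, h2⟩ := Finset.mem_filter.1 hQ
      rw [← h2, hunder Q h1]), Finset.prod_const, Nat.pow_dvd_pow_iff_le_right hNP.one_lt] at hd
  have hfr : Module.finrank (𝓞 K) (𝓞 M) = Module.finrank K M :=
    (IsFractionRing.finrank_eq (𝓞 K) K (𝓞 M) M).symm
  rw [hfr] at hd
  exact_mod_cast hd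

/-- **Second inequality.** A subgroup of the class group containing the classes below almost all
primes of degree one of `M` has index at most `[M : K]`. -/
theorem index_le_finrank (H : Subgroup (ClassGroup (𝓞 K))) (S : Finset ℕ)
    (h : ∀ (p : ℕ), p.Prime → p ∉ S → ∀ Q : Ideal (𝓞 M), Ideal.absNorm Q = p →
      ∀ h0 : Q.under (𝓞 K) ≠ ⊥,
        ClassGroup.mk0 ⟨Q.under (𝓞 K), mem_nonZeroDivisors_iff_ne_zero.mpr h0⟩ ∈ H) :
    H.index ≤ Module.finrank K M := by
  obtain ⟨B, hB⟩ := exists_density_bound_subgroup H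
  obtain ⟨C, hC⟩ := eventually_abs_primeTerm_add_log_le M
  set n := Module.finrank K M
  set C₀ : ℝ := S.card * Module.finrank ℚ M with hC₀
  by_contra! hlt
  have hlt' : (n : ℝ) + 1 ≤ H.index := by exact_mod_cast hlt
  have hev : ∀ᶠ s in 𝓝[>] (1 : ℝ), (H.index : ℝ) * (-Real.log (s - 1) - C) ≤
      n * (-Real.log (s - 1) + B) + H.index * C₀ := by
    filter_upwards [hB, hC, self_mem_nhdsWithin] with s hsB hsC hs
    have hs1 : (1 : ℝ) < s := hs
    have hsum : ∑' p, primeTerm M s p ≤
        (n * (-Real.log (s - 1) + B) + H.index * C₀) / H.index := by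
      refine Real.tsum_le_of_sum_le (primeTerm_nonneg s) fun S' => ?_
      rw [le_div_iff₀' (by linarith [(Nat.cast_nonneg n : (0 : ℝ) ≤ n)])]
      rw [← Finset.sum_filter_add_sum_filter_not S' (fun p : Nat.Primes => (p : ℕ) ∈ S), mul_add,
        add_comm ((n : ℝ) * _)]
      refine add_le_add (mul_le_mul_of_nonneg_left ?_ (Nat.cast_nonneg _)) ?_
      · have hterm : ∀ p : Nat.Primes, primeTerm M s p ≤ Module.finrank ℚ M := fun p => by
          have h1 : ((p : ℕ) : ℝ) ^ (-s) ≤ 1 :=
            Real.rpow_le_one_of_one_le_of_nonpos (by exact_mod_cast p.2.one_lt.le) (by linarith)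
          calc primeTerm M s p ≤ (normCount M (p : ℕ) : ℝ) * 1 :=
                mul_le_mul_of_nonneg_left h1 (Nat.cast_nonneg _)
            _ ≤ _ := by rw [mul_one]; exact_mod_cast normCount_prime_le p.2
        refine (Finset.sum_le_card_nsmul _ _ _ fun p _ => hterm p).trans ?_
        rw [nsmul_eq_mul, hC₀]
        refine mul_le_mul_of_nonneg_right ?_ (Nat.cast_nonneg _)
        exact_mod_cast (Finset.card_le_card_of_injOn (fun p : Nat.Primes => (p : ℕ))
          (fun p hp => (Finset.mem_filter.1 hp).2) fun a _ b _ hab => Subtype.ext hab)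
      · set S'' := S'.filter fun p : Nat.Primes => (p : ℕ) ∉ S
        let fib : Nat.Primes → Finset (Ideal (𝓞 M)) := fun p =>
          (Ideal.finite_setOfPred_absNorm_eq (S := 𝓞 M) (p : ℕ)).toFinset
        have hfib : ∀ p I, I ∈ fib p ↔ Ideal.absNorm I = (p : ℕ) := fun p I => by simp [fib]
        set TM := S''.biUnion fib
        have hTM : ∀ Q ∈ TM, (Ideal.absNorm Q).Prime ∧ Ideal.absNorm Q ∉ S := fun Q hQ => by
          obtain ⟨p, hp, hpQ⟩ := Finset.mem_biUnion.1 hQ
          rw [(hfib p Q).1 hpQ]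
          exact ⟨p.2, (Finset.mem_filter.1 hp).2⟩
        have hsum' : ∑ p ∈ S'', primeTerm M s p = ∑ P ∈ TM, idealWeight s P := by
          rw [Finset.sum_biUnion]
          · refine Finset.sum_congr rfl fun p _ => ?_
            rw [Finset.sum_congr rfl (g := fun _ => ((p : ℕ) : ℝ) ^ (-s))
              (fun I hI => by rw [idealWeight, (hfib p I).1 hI]), Finset.sum_const, nsmul_eq_mul]
            unfold primeTerm
            congr 1
            exact congrArg (Nat.cast : ℕ → ℝ) (Nat.card_eq_card_finite_toFinset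
              (Ideal.finite_setOfPred_absNorm_eq (S := 𝓞 M) (p : ℕ)))
          · intro p _ q _ hpq
            rw [Function.onFun, Finset.disjoint_left]
            intro I hp hq
            exact hpq (Subtype.ext (((hfib p I).1 hp).symm.trans ((hfib q I).1 hq)))
        obtain ⟨hT1, hT2⟩ := sum_idealWeight_le_mul (K := K) (s := s) TM fun Q hQ => (hTM Q hQ).1
        have hTB := hsB (TM.image fun Q => Q.under (𝓞 K)) fun P hP => by
          have hP0 := ne_bot_of_absNorm_eq (hT1 P hP).ne_zero (rfl : Ideal.absNorm P = _)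
          refine ⟨isPrime_of_absNorm_eq_prime (hT1 P hP) rfl, hP0, ?_⟩
          obtain ⟨Q, hQ, rfl⟩ := Finset.mem_image.1 hP
          exact h _ (hTM Q hQ).1 (hTM Q hQ).2 Q rfl hP0
        calc (H.index : ℝ) * ∑ p ∈ S'', primeTerm M s p
            ≤ H.index * (n * ∑ P ∈ TM.image (fun Q => Q.under (𝓞 K)), idealWeight s P) :=
              mul_le_mul_of_nonneg_left (hsum' ▸ hT2) (Nat.cast_nonneg _)
          _ = n * (H.index * ∑ P ∈ TM.image (fun Q => Q.under (𝓞 K)), idealWeight s P) := by ring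
          _ ≤ n * (-Real.log (s - 1) + B) := mul_le_mul_of_nonneg_left hTB (Nat.cast_nonneg _)
    rw [le_div_iff₀' (by linarith [(Nat.cast_nonneg n : (0 : ℝ) ≤ n)])] at hsum
    refine le_trans (mul_le_mul_of_nonneg_left ?_ (Nat.cast_nonneg _)) hsum
    linarith [(abs_le.mp hsC).1]
  have hlog : ∀ᶠ s in 𝓝[>] (1 : ℝ),
      Real.log (s - 1) < min 0 (-((H.index : ℝ) * C + n * B + H.index * C₀)) :=
    tendsto_log_sub_one.eventually (eventually_lt_atBot _)
  obtain ⟨s, hs1, hs2⟩ := (hev.and hlog).exists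
  rw [lt_min_iff] at hs2
  nlinarith [hs2.1, hs2.2, hs1, hlt']

/-- Degree-one primes outside a finite set generate the class group. -/
theorem eq_top_of_deg_one (H : Subgroup (ClassGroup (𝓞 K))) (S : Finset ℕ)
    (h : ∀ (p : ℕ), p.Prime → p ∉ S → ∀ P : Ideal (𝓞 K), Ideal.absNorm P = p → ∀ h0 : P ≠ ⊥,
      ClassGroup.mk0 ⟨P, mem_nonZeroDivisors_iff_ne_zero.mpr h0⟩ ∈ H) : H = ⊤ := by
  have h1 := index_le_finrank (K := K) (M := K) H S fun p hp hpS Q hQ h0 => by
    have e : Q.under (𝓞 K) = Q := by rw [Ideal.under_def]; exact Ideal.comap_id Q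
    have hh := h p hp hpS Q hQ (e ▸ h0)
    convert hh using 3
    exact e
  rw [Module.finrank_self] at h1
  have := Subgroup.index_ne_zero_of_finite (H := H)
  exact Subgroup.index_eq_one.1 (by omega)

end Fermat.Agent.Root.ClassField
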