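import Mathlib
import Fermat.Prelude.Def_ClassGroup_GaloisAction

/-!
# The norm map and Galois action on ideal class groups of rings of integers

The relative norm and the action of automorphisms, as homomorphisms of class groups, with their
values on classes of ideals.
-/

set_option autoImplicit false

noncomputable section

namespace Fermat.Agent.Root.ClassField

open NumberField
open scoped nonZeroDivisors

variable {K L : Type} [Field K] [NumberField K] [Field L] [NumberField L] [Algebra K L]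

theorem relNorm_mem {I : Ideal (𝓞 L)} (h : I ≠ ⊥) :
    Ideal.relNorm (𝓞 K) I ∈ (Ideal (𝓞 K))⁰ :=
  mem_nonZeroDivisors_iff_ne_zero.2 fun e => h (Ideal.relNorm_eq_bot_iff.1 e)

variable (K L) in
/-- The norm of non-zero ideals. -/
def idealNorm : (Ideal (𝓞 L))⁰ →* (Ideal (𝓞 K))⁰ where
  toFun I := ⟨Ideal.relNorm (𝓞 K) (I : Ideal (𝓞 L)), relNorm_mem (nonZeroDivisors.coe_ne_zero I)⟩
  map_one' := Subtype.ext (by simp)
  map_mul' I J := Subtype.ext (by simp)

theorem idealNorm_congr {I J : (Ideal (𝓞 L))⁰} (h : ClassGroup.mk0 I = ClassGroup.mk0 J) :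
    ClassGroup.mk0 (idealNorm K L I) = ClassGroup.mk0 (idealNorm K L J) := by
  obtain ⟨a, b, ha, hb, hab⟩ := ClassGroup.mk0_eq_mk0_iff.1 h
  refine ClassGroup.mk0_eq_mk0_iff.2 ⟨Algebra.intNorm (𝓞 K) (𝓞 L) a,
    Algebra.intNorm (𝓞 K) (𝓞 L) b, Algebra.intNorm_ne_zero.2 ha, Algebra.intNorm_ne_zero.2 hb, ?_⟩
  have h1 := congrArg (Ideal.relNorm (𝓞 K)) hab
  simp only [map_mul, Ideal.relNorm_singleton] at h1
  exact h1

variable (K L) in
/-- The norm map on class groups. -/
def clNorm : ClassGroup (𝓞 L) →* ClassGroup (𝓞 K) where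
  toFun C := ClassGroup.mk0 (idealNorm K L (ClassGroup.mk0_surjective C).choose)
  map_one' := by
    rw [idealNorm_congr (K := K) (J := 1)
      ((ClassGroup.mk0_surjective (1 : ClassGroup (𝓞 L))).choose_spec.trans (map_one _).symm),
      map_one, map_one]
  map_mul' C D := by
    rw [← map_mul, ← map_mul]
    refine idealNorm_congr ?_
    rw [map_mul, (ClassGroup.mk0_surjective (C * D)).choose_spec,
      (ClassGroup.mk0_surjective C).choose_spec, (ClassGroup.mk0_surjective D).choose_spec]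

theorem clNorm_mk0 (I : (Ideal (𝓞 L))⁰) :
    clNorm K L (ClassGroup.mk0 I) = ClassGroup.mk0 (idealNorm K L I) :=
  idealNorm_congr (ClassGroup.mk0_surjective (ClassGroup.mk0 I)).choose_spec

/-- The norm of a prime of prime norm is the prime below it. -/
theorem relNorm_eq_under {Q : Ideal (𝓞 L)} {p : ℕ} (hp : p.Prime) (hQ : Ideal.absNorm Q = p) :
    Ideal.relNorm (𝓞 K) Q = Q.under (𝓞 K) := by
  have hQ0 : Q ≠ ⊥ := fun h => hp.ne_zero (by rw [← hQ, h, Ideal.absNorm_bot])
  have : Q.IsMaximal := by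
    have := Ideal.isPrime_of_irreducible_absNorm (I := Q) (by rw [hQ]; exact hp)
    exact this.isMaximal hQ0
  have : (Q.under (𝓞 K)).IsMaximal := Ideal.IsMaximal.under (𝓞 K) Q
  have h1 := Ideal.relNorm_eq_pow_of_isMaximal Q (Q.under (𝓞 K))
  have h2 := congrArg Ideal.absNorm h1
  rw [Ideal.absNorm_relNorm, map_pow, hQ] at h2
  have hf := (hp.pow_eq_iff.1 h2.symm).2
  rw [h1, hf, pow_one]

variable (K) in
/-- The Galois action on the class group. -/
def clAct (σ : L ≃ₐ[K] L) : ClassGroup (𝓞 L) →* ClassGroup (𝓞 L) :=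
  (ClassGroup.mulEquiv (RingOfIntegers.mapRingEquiv σ.toRingEquiv)).toMonoidHom

omit [NumberField K] in
/-- The action on the class of an ideal is the class of its image. -/
theorem clAct_mk0 (σ : L ≃ₐ[K] L) (I J : (Ideal (𝓞 L))⁰)
    (h : (J : Ideal (𝓞 L)) = (I : Ideal (𝓞 L)).map (RingOfIntegers.mapRingEquiv σ.toRingEquiv)) :
    clAct K σ (ClassGroup.mk0 I) = ClassGroup.mk0 J := by
  show ClassGroup.mulEquiv _ (ClassGroup.mk0 I) = _
  rw [ClassGroup.mulEquiv_mk0]
  exact congrArg ClassGroup.mk0 (Subtype.ext h.symm)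

end Fermat.Agent.Root.ClassField
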