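import Fermat.Agent.Root.ClassField.CycloArtin

/-!
# Artin's lemma

The class of a place modulo the split classes only depends on the value of `f` at its Frobenius.
-/

set_option autoImplicit false

noncomputable section

namespace Fermat.Agent.Root.ClassField

open NumberField IntermediateField
open scoped Pointwise

local notation "ℚbar" => AlgebraicClosure ℚ
local notation "Γ" => AlgebraicClosure ℚ ≃ₐ[ℚ] AlgebraicClosure ℚ

/-- A prime `q` with a surjective character of `(ℤ/q)ˣ` taking the value `1` at `p`. -/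
theorem exists_good_prime (k : ℕ) {p : ℕ} (hp : p.Prime) (hp2 : p ≠ 2) (S : Finset ℕ) :
    ∃ q : ℕ, ∃ _ : Fact q.Prime, q ∉ S ∧ q ≠ p ∧
      ∃ h : (ZMod q)ˣ →* Multiplicative (ZMod (2 ^ k)), h (-1) = 1 ∧ Function.Surjective h ∧
        ∀ u : (ZMod q)ˣ, (u : ZMod q) = (p : ZMod q) → h u = Multiplicative.ofAdd 1 := by
  have : Fact p.Prime := ⟨hp⟩
  obtain ⟨a, ha⟩ := FiniteField.exists_nonsquare (F := ZMod p) (by rwa [ZMod.ringChar_zmod_n])
  have ha0 : a ≠ 0 := fun h0 => ha (h0 ▸ IsSquare.zero)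
  set m : ℕ := 4 * 2 ^ k with hm
  have hm0 : m ≠ 0 := by positivity
  have hcop : Nat.Coprime m p := by
    rw [hm, show (4 : ℕ) * 2 ^ k = 2 ^ (k + 2) by ring]
    exact ((Nat.coprime_primes Nat.prime_two hp).2 (Ne.symm hp2)).pow_left _
  obtain ⟨b, hb1, hb2⟩ := Nat.chineseRemainder hcop 1 a.val
  have hbc : b.Coprime (m * p) := by
    refine Nat.Coprime.mul_right ?_ ?_
    · have h := hb1.gcd_eq
      rwa [Nat.gcd_one_left] at h
    · refine (hp.coprime_iff_not_dvd.2 fun hd => ha0 ?_).symm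
      rw [← ZMod.natCast_zmod_val a, ← (ZMod.natCast_eq_natCast_iff _ _ _).2 hb2,
        ZMod.natCast_eq_zero_iff]
      exact hd
  obtain ⟨q, hqgt, hq, hqb⟩ := Nat.forall_exists_prime_gt_and_modEq (S.sup id + p + 2)
    (mul_ne_zero hm0 hp.ne_zero) hbc
  have hqF : Fact q.Prime := ⟨hq⟩
  have hqm : q ≡ 1 [MOD m] := (hqb.of_mul_right p).trans hb1
  have hqp : (q : ZMod p) = a := by
    rw [(ZMod.natCast_eq_natCast_iff _ _ _).2 ((hqb.of_mul_left m).trans hb2),
      ZMod.natCast_zmod_val]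
  have hq4 : q % 4 = 1 := hqm.of_mul_right (2 ^ k)
  have hqdvd : 2 ^ (k + 1) ∣ q - 1 := by
    refine dvd_trans ?_ ((Nat.modEq_iff_dvd' hq.one_le).1 hqm.symm)
    exact ⟨2, by rw [hm, pow_succ]; ring⟩
  have hqne : q ≠ p := by omega
  -- `p` is not a square mod `q`
  have hnsq : ¬ IsSquare (p : ZMod q) := by
    rw [← legendreSym.eq_neg_one_iff', ← legendreSym.quadratic_reciprocity_one_mod_four hq4 hp2,
      legendreSym.eq_neg_one_iff', hqp]
    exact ha
  refine ⟨q, hqF, fun h => ?_, hqne, ?_⟩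
  · have : q ≤ S.sup id := Finset.le_sup (f := id) h
    omega
  have hcard : Nat.card (ZMod q)ˣ = q - 1 := by rw [Nat.card_eq_fintype_card, ZMod.card_units]
  have hdvd : 2 ^ k ∣ Nat.card (ZMod q)ˣ := hcard ▸ (dvd_trans (pow_dvd_pow 2 k.le_succ) hqdvd)
  let h₀ : (ZMod q)ˣ →* Multiplicative (ZMod (2 ^ k)) :=
    (AddMonoidHom.toMultiplicative (ZMod.castHom hdvd (ZMod (2 ^ k))).toAddMonoidHom).comp
      (zmodCyclicMulEquiv (inferInstance : IsCyclic (ZMod q)ˣ)).symm.toMonoidHom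
  have hsurj : Function.Surjective h₀ := fun y => by
    obtain ⟨z, hz⟩ := ZMod.castHom_surjective hdvd (Multiplicative.toAdd y)
    exact ⟨zmodCyclicMulEquiv (inferInstance : IsCyclic (ZMod q)ˣ) (Multiplicative.ofAdd z), by
      show Multiplicative.ofAdd (ZMod.castHom hdvd _ (Multiplicative.toAdd
        ((zmodCyclicMulEquiv _).symm (zmodCyclicMulEquiv _ (Multiplicative.ofAdd z))))) = y
      rw [MulEquiv.symm_apply_apply, toAdd_ofAdd, hz, ofAdd_toAdd]⟩
  have hp0 : (p : ZMod q) ≠ 0 := by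
    rw [Ne, ZMod.natCast_eq_zero_iff]
    exact fun h => hqne ((Nat.prime_dvd_prime_iff_eq hq hp).1 h)
  set up : (ZMod q)ˣ := Units.mk0 _ hp0
  set v := Multiplicative.toAdd (h₀ up) with hv
  have hodd : IsUnit v ∨ k = 0 := by
    rcases Nat.eq_zero_or_pos k with h | h
    · exact Or.inr h
    left
    obtain ⟨g, hg⟩ := IsCyclic.exists_generator (α := (ZMod q)ˣ)
    obtain ⟨i, hi⟩ := mem_powers_iff_mem_zpowers.2 (hg up)
    simp only at hi
    have hio : Odd i := by
      rw [← Nat.not_even_iff_odd]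
      rintro ⟨t, rfl⟩
      exact hnsq ⟨((g ^ t : (ZMod q)ˣ) : ZMod q), by
        rw [← Units.val_mul, ← pow_add, hi]; rfl⟩
    have hgu : IsUnit (Multiplicative.toAdd (h₀ g)) := by
      obtain ⟨x, hx⟩ := hsurj (Multiplicative.ofAdd 1)
      obtain ⟨t, ht⟩ := mem_powers_iff_mem_zpowers.2 (hg x)
      simp only at ht
      rw [← ht, map_pow] at hx
      have h1 := congrArg Multiplicative.toAdd hx
      rw [toAdd_pow, nsmul_eq_mul, toAdd_ofAdd] at h1
      exact IsUnit.of_mul_eq_one _ (by rw [mul_comm, h1])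
    rw [hv, ← hi, map_pow, toAdd_pow, nsmul_eq_mul]
    refine IsUnit.mul ?_ hgu
    rw [ZMod.isUnit_iff_coprime]
    exact (Nat.coprime_two_right.2 hio).pow_right k
  obtain ⟨w, hw⟩ : ∃ w, w * v = 1 := by
    rcases hodd with hu | rfl
    · obtain ⟨w, hw⟩ := hu.exists_left_inv
      exact ⟨w, hw⟩
    · exact ⟨1, @Subsingleton.elim _ (ZMod.subsingleton_iff.2 (pow_zero 2)) _ _⟩
  let μ : Multiplicative (ZMod (2 ^ k)) →* Multiplicative (ZMod (2 ^ k)) :=
    AddMonoidHom.toMultiplicative (AddMonoidHom.mulLeft w)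
  refine ⟨μ.comp h₀, ?_, fun y => ?_, fun u hu => ?_⟩
  · have hsq : ∃ y : (ZMod q)ˣ, y ^ 2 ^ k = -1 := by
      obtain ⟨g, hg⟩ := IsCyclic.exists_generator (α := (ZMod q)ˣ)
      obtain ⟨i, hi⟩ := mem_powers_iff_mem_zpowers.2 (hg (-1))
      simp only at hi
      have hord : orderOf g = q - 1 := (orderOf_eq_card_of_forall_mem_zpowers hg).trans hcard
      have h1 : g ^ (2 * i) = 1 := by rw [mul_comm, pow_mul, hi]; exact neg_one_sq
      rw [← orderOf_dvd_iff_pow_eq_one, hord] at h1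
      have h2 : 2 ^ k ∣ i := by
        have := dvd_trans hqdvd h1
        rw [pow_succ'] at this
        exact Nat.dvd_of_mul_dvd_mul_left two_pos this
      obtain ⟨t, rfl⟩ := h2
      exact ⟨g ^ t, by rw [← pow_mul, mul_comm, hi]⟩
    obtain ⟨y, hy⟩ := hsq
    rw [← hy, map_pow]
    exact Multiplicative.toAdd.injective (by
      rw [toAdd_pow, nsmul_eq_mul, toAdd_one, ZMod.natCast_self, zero_mul])
  · obtain ⟨x, hx⟩ := hsurj (Multiplicative.ofAdd (v * Multiplicative.toAdd y))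
    refine ⟨x, ?_⟩
    show Multiplicative.ofAdd (w * Multiplicative.toAdd (h₀ x)) = y
    rw [hx, toAdd_ofAdd, ← mul_assoc, hw, one_mul, ofAdd_toAdd]
  · obtain rfl : u = up := Units.ext hu
    show Multiplicative.ofAdd (w * v) = _
    rw [hw]

variable {K : IntermediateField ℚ ℚbar} [NumberField K] {n : ℕ} [NeZero n] {f : Γ → ZMod n}

/-- `θ = h ∘ χ_q`, additively. -/
def theta {q : ℕ} [Fact q.Prime] (h : (ZMod q)ˣ →* Multiplicative (ZMod n)) (σ : Γ) : ZMod n :=
  Multiplicative.toAdd (h (cycloChar q σ))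

omit [NeZero n] in
theorem theta_mul {q : ℕ} [Fact q.Prime] (h : (ZMod q)ˣ →* Multiplicative (ZMod n)) (σ τ : Γ) :
    theta h (σ * τ) = theta h σ + theta h τ := by
  simp [theta]

/-- Frobenius density for two homomorphisms and two characters at once. -/
theorem exists_place_values (hf : IsUnrHom K f) {q q' : ℕ} [Fact q.Prime] [Fact q'.Prime]
    (hne : q ≠ q') (hqK : ∀ A : ValuationSubring ℚbar, A.LiesOverPrime q →
      A.inertiaSubgroupIn ℚ ≤ K.fixingSubgroup)
    (hqK' : ∀ A : ValuationSubring ℚbar, A.LiesOverPrime q' →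
      A.inertiaSubgroupIn ℚ ≤ K.fixingSubgroup)
    {h : (ZMod q)ˣ →* Multiplicative (ZMod n)} (hh : Function.Surjective h)
    {h' : (ZMod q')ˣ →* Multiplicative (ZMod n)} (hh' : Function.Surjective h')
    {g : Γ} (hg : g ∈ K.fixingSubgroup) (b : ZMod n) (T : Finset ℕ) :
    ∃ (P : Place K T) (j : ZMod n), IsUnit j ∧ f P.φ = j * f g ∧ theta h P.φ = j ∧
      theta h' P.φ = j * b := by
  obtain ⟨A, hA⟩ := Gal.exists_liesOverPrime (L := ℚbar) (Fact.out : q.Prime)
  obtain ⟨A', hA'⟩ := Gal.exists_liesOverPrime (L := ℚbar) (Fact.out : q'.Prime)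
  obtain ⟨u, hu⟩ := hh (Multiplicative.ofAdd (1 - theta h g))
  obtain ⟨u', hu'⟩ := hh' (Multiplicative.ofAdd (b - theta h' g))
  obtain ⟨i, hi, hiu⟩ := exists_inertia_cycloChar_eq q hA u
  obtain ⟨i', hi', hiu'⟩ := exists_inertia_cycloChar_eq q' hA' u'
  have hiK := hqK A hA hi
  have hiK' := hqK' A' hA' hi'
  set σ := g * i * i' with hσdef
  have hσ : σ ∈ K.fixingSubgroup := mul_mem (mul_mem hg hiK) hiK'
  have hfσ : f σ = f g := by
    rw [hσdef, hf.map_mul _ (mul_mem hg hiK) _ hiK', hf.map_mul _ hg _ hiK,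
      hf.unr q Fact.out A hA i hi hiK, hf.unr q' Fact.out A' hA' i' hi' hiK', add_zero, add_zero]
  have hθ : theta h σ = 1 := by
    have h1 : cycloChar q i' = 1 := cycloChar_inertia q (Fact.out : q'.Prime) hne.symm hA' hi'
    simp [hσdef, theta, hiu, hu, h1]
  have hθ' : theta h' σ = b := by
    have h1 : cycloChar q' i = 1 := cycloChar_inertia q' (Fact.out : q.Prime) hne hA hi
    simp [hσdef, theta, hiu', hu', h1]
  -- a level for all three
  obtain ⟨M, hM, -, hMf⟩ := hf.exists_level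
  have : FiniteDimensional ℚ (IntermediateField.adjoin ℚ {rootQ q}) :=
    IntermediateField.adjoin.finiteDimensional (Algebra.IsIntegral.isIntegral (R := ℚ) _)
  have : FiniteDimensional ℚ (IntermediateField.adjoin ℚ {rootQ q'}) :=
    IntermediateField.adjoin.finiteDimensional (Algebra.IsIntegral.isIntegral (R := ℚ) _)
  obtain ⟨P, s, j, h1, h2⟩ := exists_place_eqOn K
    (M ⊔ IntermediateField.adjoin ℚ {rootQ q} ⊔ IntermediateField.adjoin ℚ {rootQ q'}) T hσ
  have hχ : ∀ {r : ℕ} [Fact r.Prime] (x y : Γ),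
      (∀ z ∈ IntermediateField.adjoin ℚ {rootQ r}, x z = y z) → cycloChar r x = cycloChar r y := by
    intro r _ x y hxy
    have h3 : cycloChar r (y⁻¹ * x) = 1 := cycloChar_eq_one r ((mem_fixingSubgroup_iff Γ).2
      fun z hz => by
        show y⁻¹ (x z) = z
        rw [hxy z hz]
        exact y.symm_apply_apply z)
    rwa [map_mul, map_inv, inv_mul_eq_one, eq_comm] at h3
  have hle1 : M ≤ M ⊔ IntermediateField.adjoin ℚ {rootQ q} ⊔ IntermediateField.adjoin ℚ
      {rootQ q'} :=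
    le_sup_of_le_left le_sup_left
  have hle2 : IntermediateField.adjoin ℚ {rootQ q} ≤
      M ⊔ IntermediateField.adjoin ℚ {rootQ q} ⊔ IntermediateField.adjoin ℚ {rootQ q'} :=
    le_sup_of_le_left le_sup_right
  have hle3 : IntermediateField.adjoin ℚ {rootQ q'} ≤
      M ⊔ IntermediateField.adjoin ℚ {rootQ q} ⊔ IntermediateField.adjoin ℚ {rootQ q'} :=
    le_sup_right
  have hf1 : f P.φ = (j : ZMod n) * f g := by
    rw [hMf _ _ P.mem (pow_mem hσ j) fun x hx => h2 x (hle1 hx), hf.map_pow hσ, hfσ]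
  have hθ1 : theta h P.φ = (j : ZMod n) := by
    rw [theta, hχ _ _ fun x hx => h2 x (hle2 hx), map_pow, map_pow, toAdd_pow, nsmul_eq_mul,
      ← theta, hθ, mul_one]
  refine ⟨P, (j : ZMod n), ?_, hf1, hθ1, ?_⟩
  · refine IsUnit.of_mul_eq_one (s : ZMod n) ?_
    have h3 : theta h σ = theta h (P.φ ^ s) := by rw [theta, hχ _ _ fun x hx => h1 x (hle2 hx)]; rfl
    rw [hθ, theta, map_pow, map_pow, toAdd_pow, nsmul_eq_mul, ← theta, hθ1, mul_comm] at h3
    exact h3.symm
  · rw [theta, hχ _ _ fun x hx => h2 x (hle3 hx), map_pow, map_pow, toAdd_pow, nsmul_eq_mul,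
      ← theta, hθ']

/-- The classes of places satisfy the relations of `f` inside the cyclotomic crossing field. -/
theorem exists_crossing_hom (hf : IsUnrHom K f) (S : Finset ℕ) {q : ℕ} [Fact q.Prime]
    (hqK : ∀ A : ValuationSubring ℚbar, A.LiesOverPrime q →
      A.inertiaSubgroupIn ℚ ≤ K.fixingSubgroup)
    (h : (ZMod q)ˣ →* Multiplicative (ZMod n)) (hneg : h (-1) = 1) (c : ZMod n) :
    ∀ (P P' : Place K (insert q S)), f P.φ = c * theta h P.φ → f P'.φ = c * theta h P'.φ →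
      ∀ u : ℕ, (u : ZMod n) * f P.φ = f P'.φ →
        (QuotientGroup.mk (cls P) : ClassGroup (𝓞 K) ⧸ splitClasses K f S) ^ u =
          QuotientGroup.mk (cls P') := by
  set T := insert q S
  let g : Γ → ZMod n := fun σ => f σ - c * theta h σ
  have : FiniteDimensional ℚ (IntermediateField.adjoin ℚ {rootQ q}) :=
    IntermediateField.adjoin.finiteDimensional (Algebra.IsIntegral.isIntegral (R := ℚ) _)
  have hg : IsLevelHom K g := by
    refine ⟨fun σ hσ τ hτ => ?_, ?_⟩
    · simp only [g, hf.map_mul σ hσ τ hτ, theta_mul]; ring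
    · obtain ⟨M, hM, hMf⟩ := hf.level
      refine ⟨M ⊔ IntermediateField.adjoin ℚ {rootQ q}, inferInstance, fun σ hσK hσ => ?_⟩
      simp only [g, theta, cycloChar_eq_one q (IntermediateField.fixingSubgroup_le le_sup_right hσ),
        hMf σ hσK (IntermediateField.fixingSubgroup_le le_sup_left hσ), map_one, toAdd_one,
        mul_zero, sub_zero]
  have := hg.finiteDimensional_kernelField
  set L := hg.kernelField
  have : NumberField L := ⟨⟩
  have hKL : K ≤ L := hg.le_kernelField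
  have hmemL : ∀ {σ : Γ}, σ ∈ L.fixingSubgroup ↔ σ ∈ K.fixingSubgroup ∧ f σ = c * theta h σ := by
    intro σ
    rw [hg.mem_fixingSubgroup_kernelField]
    simp only [g, sub_eq_zero]
  let h' : (ZMod q)ˣ →* Multiplicative (ZMod n) :=
    (AddMonoidHom.toMultiplicative (AddMonoidHom.mulLeft c)).comp h
  have hh' : ∀ σ, h' (cycloChar q σ) = Multiplicative.ofAdd (c * theta h σ) := fun σ => rfl
  have hI : ∀ A : ValuationSubring ℚbar, A.LiesOverPrime q → ∀ i ∈ A.inertiaSubgroupIn ℚ,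
      (i ∈ L.fixingSubgroup ↔ h' (cycloChar q i) = 1) := by
    intro A hA i hi
    rw [hmemL, hh', hf.unr q Fact.out A hA i hi (hqK A hA hi)]
    exact ⟨fun h1 => by rw [← h1.2]; rfl,
      fun h1 => ⟨hqK A hA hi, (Multiplicative.ofAdd.injective (h1.trans ofAdd_zero.symm)).symm⟩⟩
  have hneg' : h' (-1) = 1 := by
    show Multiplicative.ofAdd (c * Multiplicative.toAdd (h (-1))) = 1
    rw [hneg, toAdd_one, mul_zero, ofAdd_zero]
  obtain ⟨art, hart⟩ := exists_cycloArtin h' L hI hneg' T (Finset.mem_insert_self q S)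
  have hartf : ∀ P : Place L T, art (cls P) = Multiplicative.ofAdd (f P.φ) := fun P => by
    rw [hart, hh', (hmemL.1 P.mem).2]
  have hfL := hf.toIsLevelHom.of_le hKL
  have hHle : splitClasses L f T ≤ art.ker := by
    refine (Subgroup.closure_le _).2 ?_
    rintro C ⟨P, hP, rfl⟩
    rw [SetLike.mem_coe, MonoidHom.mem_ker, hartf, hP, ofAdd_zero]
  have hrange : hfL.toHom.range ≤ art.range := by
    rintro y ⟨σ, rfl⟩
    obtain ⟨P, i, j, hi, -⟩ := hfL.exists_place T σ.2
    refine ⟨cls P ^ i, ?_⟩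
    rw [map_pow, hartf]
    show Multiplicative.ofAdd (f P.φ) ^ i = Multiplicative.ofAdd (f σ)
    rw [hi, ← ofAdd_nsmul, nsmul_eq_mul]
  have hker : art.ker = splitClasses L f T := by
    refine le_antisymm (fun C hC => ?_) hHle
    by_contra hC'
    have hlt : splitClasses L f T < art.ker := lt_of_le_of_ne hHle fun e => hC' (e ▸ hC)
    have h1 := Subgroup.relIndex_mul_index hHle
    have h2 : art.ker.index = Nat.card art.range := Subgroup.index_ker art
    have h3 := hfL.index_splitClasses_le T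
    have h4 : Nat.card hfL.toHom.range ≤ Nat.card art.range := Subgroup.card_le_of_le hrange
    have h5 : (splitClasses L f T).relIndex art.ker ≠ 1 := fun e =>
      hlt.not_ge (Subgroup.relIndex_eq_one.1 e)
    have h6 : (splitClasses L f T).relIndex art.ker ≠ 0 := fun e => by
      rw [e, zero_mul] at h1
      exact Subgroup.index_ne_zero_of_finite h1.symm
    have h7 : 0 < Nat.card art.range := Nat.card_pos
    rw [h2] at h1
    have : 2 * Nat.card art.range ≤ (splitClasses L f T).index := by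
      rw [← h1]; exact Nat.mul_le_mul (by omega) le_rfl
    omega
  have hN : ∀ C, art C = 1 → normLE hKL C ∈ splitClasses K f S := by
    intro C hC
    have h1 : C ∈ splitClasses L f T := hker ▸ hC
    refine (Subgroup.closure_le ((splitClasses K f S).comap (normLE hKL))).2 ?_ h1
    rintro D ⟨P, hP, rfl⟩
    rw [SetLike.mem_coe, Subgroup.mem_comap, normLE_cls]
    exact splitClasses_anti (Finset.subset_insert q S)
      (Subgroup.subset_closure ⟨P.restrict hKL, hP, rfl⟩)
  intro P P' hP hP' u hu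
  let Q : Place L T := { P with mem := hmemL.2 ⟨P.mem, hP⟩ }
  let Q' : Place L T := { P' with mem := hmemL.2 ⟨P'.mem, hP'⟩ }
  have h1 : art ((cls Q ^ u)⁻¹ * cls Q') = 1 := by
    rw [map_mul, map_inv, map_pow, hartf, hartf, inv_mul_eq_one, ← ofAdd_nsmul, nsmul_eq_mul]
    exact congrArg _ hu
  have h2 := hN _ h1
  rw [map_mul, map_inv, map_pow, normLE_cls, normLE_cls] at h2
  rw [← QuotientGroup.mk_pow, QuotientGroup.eq]
  exact h2

/-- **Artin's lemma.** -/
theorem exists_quot_hom {k : ℕ} {f : Γ → ZMod (2 ^ k)} (hf : IsUnrHom K f)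
    (hone : ∃ g ∈ K.fixingSubgroup, f g = 1) :
    ∃ S₀ : Finset ℕ, ∀ S : Finset ℕ, S₀ ⊆ S →
      ∃ Φ : Multiplicative (ZMod (2 ^ k)) →* ClassGroup (𝓞 K) ⧸ splitClasses K f S,
        ∀ P : Place K S, Φ (Multiplicative.ofAdd (f P.φ)) = QuotientGroup.mk (cls P) := by
  obtain ⟨g₁, hg₁, hfg₁⟩ := hone
  obtain ⟨Sbad, hbad⟩ := exists_bad_set K
  refine ⟨insert 2 Sbad, fun S hS => ?_⟩
  have h2S : ∀ {p : ℕ}, p ∉ S → p ≠ 2 := fun hp e => hp (hS (e ▸ Finset.mem_insert_self 2 Sbad))
  have hinK : ∀ q : ℕ, q.Prime → q ∉ S → ∀ A : ValuationSubring ℚbar, A.LiesOverPrime q →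
      A.inertiaSubgroupIn ℚ ≤ K.fixingSubgroup := fun q hq hqS A hA σ hσ =>
    hbad q hq (fun e => hqS (hS (Finset.mem_insert_of_mem e))) A hA σ fun x =>
      ((Gal.mem_inertia_iff A σ).1 hσ).2 _
        (Gal.mem_of_isIntegral A (RingOfIntegers.isIntegral_coe x).algebraMap)
  -- the fixed auxiliary prime and base place
  obtain ⟨q₀, hq₀F, hq₀S, -, h₀, hneg₀, hsurj₀, -⟩ :=
    exists_good_prime k Nat.prime_three (by norm_num) S
  have := hq₀F
  obtain ⟨q₁, hq₁F, hq₁S', -, h₁, -, hsurj₁, -⟩ :=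
    exists_good_prime k Nat.prime_three (by norm_num) (insert q₀ S)
  have := hq₁F
  simp only [Finset.mem_insert, not_or] at hq₁S'
  obtain ⟨B₀, j₀, hj₀, hfB₀, hθB₀, -⟩ := exists_place_values hf (Ne.symm hq₁S'.1)
    (hinK q₀ Fact.out hq₀S) (hinK q₁ Fact.out hq₁S'.2) hsurj₀ hsurj₁ hg₁ 0 (insert q₀ S)
  rw [hfg₁, mul_one] at hfB₀
  obtain ⟨w, hw⟩ := hj₀.exists_left_inv
  set H := splitClasses K f S
  let e : ClassGroup (𝓞 K) ⧸ H := QuotientGroup.mk (cls B₀) ^ w.val
  have hpow : ∀ Y : Place K S,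
      (QuotientGroup.mk (cls Y) : ClassGroup (𝓞 K) ⧸ H) ^ 2 ^ k = 1 := by
    intro Y
    obtain ⟨r, hrF, hrS, hrp, h', hneg', -, hr1⟩ := exists_good_prime k Y.prime (h2S Y.notMem) S
    have := hrF
    let Yr : Place K (insert r S) := ⟨Y.A, Y.p, Y.φ, Y.prime, fun e =>
      (Finset.mem_insert.1 e).elim (fun e => hrp e.symm) Y.notMem, Y.lies, Y.frob, Y.mem⟩
    have hθY : theta h' Y.φ = 1 := by
      rw [theta, hr1 _ (cycloChar_frob r Y.prime (Ne.symm hrp) Y.lies Y.frob)]
      rfl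
    have hY : f Yr.φ = f Y.φ * theta h' Yr.φ := by
      show f Y.φ = f Y.φ * theta h' Y.φ
      rw [hθY, mul_one]
    have r3 := exists_crossing_hom hf S (hinK r Fact.out hrS) h' hneg' (f Y.φ) Yr Yr hY hY
      (2 ^ k + 1) (by rw [Nat.cast_add, ZMod.natCast_self, zero_add, Nat.cast_one, one_mul])
    rw [pow_succ] at r3
    exact mul_eq_right.1 r3
  -- every place is congruent to a power of `e`
  have key : ∀ P : Place K S, QuotientGroup.mk (cls P) = e ^ (f P.φ).val := by
    intro P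
    obtain ⟨q, hqF, hqS', hqp, h, hneg, hsurj, hone'⟩ :=
      exists_good_prime k P.prime (h2S P.notMem) (insert q₀ S)
    have := hqF
    simp only [Finset.mem_insert, not_or] at hqS'
    have hθP : theta h P.φ = 1 := by
      rw [theta, hone' _ (cycloChar_frob q P.prime (Ne.symm hqp) P.lies P.frob)]
      rfl
    set c := f P.φ
    obtain ⟨B, j, hj, hfB, hθB, hθB'⟩ := exists_place_values hf hqS'.1
      (hinK q Fact.out hqS'.2) (hinK q₀ Fact.out hq₀S) hsurj hsurj₀ P.mem c
      (insert q (insert q₀ S))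
    let Pq : Place K (insert q S) :=
      { P with notMem := by simp only [Finset.mem_insert, not_or]; exact ⟨Ne.symm hqp, P.notMem⟩ }
    let Bq : Place K (insert q S) := B.weaken (by
      intro x hx; simp only [Finset.mem_insert] at hx ⊢; tauto)
    let B₀' : Place K (insert q₀ S) := B₀
    let B' : Place K (insert q₀ S) := B.weaken (Finset.subset_insert q _)
    have r1 := exists_crossing_hom hf S (hinK q Fact.out hqS'.2) h hneg c Pq Bq
      (by show f P.φ = c * theta h P.φ; rw [hθP, mul_one])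
      (by show f B.φ = c * theta h B.φ; rw [hfB, hθB, mul_comm])
      j.val (by show (j.val : ZMod (2 ^ k)) * f P.φ = f B.φ; rw [ZMod.natCast_zmod_val, hfB])
    have r2 := exists_crossing_hom hf S (hinK q₀ Fact.out hq₀S) h₀ hneg₀ 1 B₀' B'
      (by show f B₀.φ = 1 * theta h₀ B₀.φ; rw [one_mul, hfB₀, hθB₀])
      (by show f B.φ = 1 * theta h₀ B.φ; rw [one_mul, hθB', hfB])
      (w * (j * c)).val (by
        show ((w * (j * c)).val : ZMod (2 ^ k)) * f B₀.φ = f B.φ
        rw [ZMod.natCast_zmod_val, hfB₀, hfB, mul_comm, ← mul_assoc, mul_comm j₀, hw, one_mul])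
    obtain ⟨j', hj'⟩ := hj.exists_left_inv
    -- exponents only matter modulo `2 ^ k`
    have hexp : ∀ X : ClassGroup (𝓞 K) ⧸ H, (∃ Y : Place K S, QuotientGroup.mk (cls Y) = X) →
        X ^ 2 ^ k = 1 := by
      rintro X ⟨Y, rfl⟩
      exact hpow Y
    have hmod : ∀ X : ClassGroup (𝓞 K) ⧸ H, (∃ Y : Place K S, QuotientGroup.mk (cls Y) = X) →
        ∀ a b : ℕ, (a : ZMod (2 ^ k)) = b → X ^ a = X ^ b := by
      intro X hX a b hab
      rw [ZMod.natCast_eq_natCast_iff] at hab
      rw [← Nat.mod_add_div a (2 ^ k), ← Nat.mod_add_div b (2 ^ k), pow_add, pow_add, pow_mul,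
        pow_mul, hexp X hX, one_pow, one_pow, hab]
    have hPY : ∃ Y : Place K S, QuotientGroup.mk (cls Y) = QuotientGroup.mk (s := H) (cls P) :=
      ⟨P, rfl⟩
    have hBY : ∃ Y : Place K S, QuotientGroup.mk (cls Y) = QuotientGroup.mk (s := H) (cls B₀) :=
      ⟨B₀.weaken (Finset.subset_insert _ _), rfl⟩
    have r12 : (QuotientGroup.mk (cls P) : ClassGroup (𝓞 K) ⧸ H) ^ j.val =
        QuotientGroup.mk (cls B₀) ^ (w * (j * c)).val := r1.trans r2.symm
    have r4 := congrArg (· ^ j'.val) r12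
    simp only [← pow_mul] at r4
    have e1 := hmod _ hPY (j.val * j'.val) 1
      (by push_cast; rw [ZMod.natCast_zmod_val, ZMod.natCast_zmod_val, mul_comm, hj'])
    rw [pow_one] at e1
    rw [e1] at r4
    refine r4.trans ?_
    show _ = (QuotientGroup.mk (cls B₀) ^ w.val) ^ c.val
    rw [← pow_mul]
    refine hmod _ hBY _ _ ?_
    push_cast
    simp only [ZMod.natCast_zmod_val]
    calc w * (j * c) * j' = w * c * (j' * j) := by ring
      _ = w * c := by rw [hj', mul_one]
  have he : e ^ 2 ^ k = 1 := by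
    show (QuotientGroup.mk (cls B₀) ^ w.val) ^ 2 ^ k = 1
    rw [← pow_mul, mul_comm, pow_mul]
    exact (congrArg (· ^ w.val) (hpow (B₀.weaken (Finset.subset_insert _ _)))).trans (one_pow _)
  refine ⟨MonoidHom.mk' (fun y => e ^ (Multiplicative.toAdd y).val) fun a b => ?_, fun P =>
    (key P).symm⟩
  rw [← pow_add]
  conv_lhs => rw [toAdd_mul, ZMod.val_add, ← pow_mod_orderOf, Nat.mod_mod_of_dvd _
    (orderOf_dvd_of_pow_eq_one he), pow_mod_orderOf]

end Fermat.Agent.Root.ClassField
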