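import Fermat.Agent.Root.ClassField.Hom
import Fermat.Agent.Root.ClassField.CycloChar
import Fermat.Agent.Gal.Residue

/-!
# The Artin map of an unramified cyclotomic extension

If inertia at `q` meets `G_L` exactly in the kernel of a character `h` of `(ℤ/q)ˣ`, then norms
from `L` of `q`-units are killed by `h`, so `P ↦ h (N P mod q)` is a character of the class group.
-/

set_option autoImplicit false

noncomputable section

namespace Fermat.Agent.Root.ClassField

open NumberField IntermediateField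
open scoped Pointwise nonZeroDivisors Classical

local notation "ℚbar" => AlgebraicClosure ℚ
local notation "Γ" => AlgebraicClosure ℚ ≃ₐ[ℚ] AlgebraicClosure ℚ

variable {q : ℕ} [hq : Fact q.Prime] {G : Type} [CommGroup G] (h : (ZMod q)ˣ →* G)

/-- A unit killed by `(q - 1) / [image of h]` is killed by `h`. -/
theorem eq_one_of_pow_div_eq_one {ν : (ZMod q)ˣ}
    (hν : ν ^ ((q - 1) / Nat.card h.range) = 1) : h ν = 1 := by
  obtain ⟨g, hg⟩ := IsCyclic.exists_generator (α := (ZMod q)ˣ)
  obtain ⟨i, rfl⟩ := mem_powers_iff_mem_zpowers.2 (hg ν)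
  have hord : orderOf g = q - 1 := by
    rw [orderOf_eq_card_of_forall_mem_zpowers hg, Nat.card_eq_fintype_card, ZMod.card_units]
  set e := Nat.card h.range with he
  have hedvd : e ∣ q - 1 := by
    rw [← ZMod.card_units q, ← Nat.card_eq_fintype_card, he, ← Subgroup.index_ker]
    exact Subgroup.index_dvd_card _
  simp only at hν ⊢
  rw [← pow_mul, ← orderOf_dvd_iff_pow_eq_one, hord] at hν
  have hei : e ∣ i := by
    have h1 : e * ((q - 1) / e) ∣ i * ((q - 1) / e) := by
      rwa [Nat.mul_div_cancel' hedvd]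
    refine Nat.dvd_of_mul_dvd_mul_right (Nat.div_pos (Nat.le_of_dvd ?_ hedvd) Nat.card_pos) h1
    have := hq.out.two_le
    omega
  obtain ⟨t, rfl⟩ := hei
  rw [map_pow, pow_mul]
  have : h g ^ e = 1 := by
    have h2 := pow_card_eq_one' (x := (⟨h g, g, rfl⟩ : h.range))
    exact congrArg Subtype.val h2
  rw [this, one_pow]

variable (L : IntermediateField ℚ ℚbar) [NumberField L]
  (hI : ∀ A : ValuationSubring ℚbar, A.LiesOverPrime q → ∀ i ∈ A.inertiaSubgroupIn ℚ,
    (i ∈ L.fixingSubgroup ↔ h (cycloChar q i) = 1))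
include hI

/-- Norms of `q`-units are killed by `h`. -/
theorem map_norm_eq_one (α : 𝓞 L) (ν : (ZMod q)ˣ) (hν : ((Algebra.norm ℤ α : ℤ) : ZMod q) = ν) :
    h ν = 1 := by
  obtain ⟨A, hA⟩ := Gal.exists_liesOverPrime (L := ℚbar) hq.out
  obtain ⟨φ, hφ⟩ := Gal.exists_isFrobeniusAt hq.out hA
  have hφ' := (Gal.isFrobeniusAt_iff A φ q).1 hφ
  set k := IsLocalRing.ResidueField A
  have : CharP k q := Gal.charP_residueField A hq.out hA
  have hint : ∀ g : Γ, g ((α : L) : ℚbar) ∈ A := fun g => Gal.mem_of_isIntegral A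
    (Gal.isIntegral_apply g (RingOfIntegers.isIntegral_coe α).algebraMap)
  let res : Γ → k := fun g => IsLocalRing.residue A ⟨g ((α : L) : ℚbar), hint g⟩
  -- the embeddings as cosets
  let U := L.fixingSubgroup
  let emb : Γ ⧸ U → (L →ₐ[ℚ] ℚbar) :=
    Quotient.lift (fun g : Γ => (g : ℚbar →ₐ[ℚ] ℚbar).comp L.val) fun a b hab => by
      replace hab : a⁻¹ * b ∈ U := QuotientGroup.leftRel_apply.1 hab
      refine AlgHom.ext fun x => ?_
      show a (x : ℚbar) = b (x : ℚbar)
      have := fixingSubgroup_apply hab x.2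
      rw [AlgEquiv.mul_apply] at this
      conv_lhs => rw [← this]
      exact a.apply_symm_apply _
  have hemb : Function.Bijective emb := by
    constructor
    · rintro ⟨a⟩ ⟨b⟩ hab
      refine QuotientGroup.eq.2 ((mem_fixingSubgroup_iff Γ).2 fun x hx => ?_)
      have h1 : a x = b x := DFunLike.congr_fun hab (⟨x, hx⟩ : L)
      show a⁻¹ (b x) = x
      rw [← h1]
      exact a.symm_apply_apply x
    · intro τ
      refine ⟨QuotientGroup.mk (Algebra.IsAlgebraic.algEquivEquivAlgHom ℚ ℚbar |>.symm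
        (τ.liftNormal ℚbar)), AlgHom.ext fun x => ?_⟩
      show (τ.liftNormal ℚbar) (algebraMap L ℚbar x) = τ x
      rw [AlgHom.liftNormal_commutes]
      rfl
  have : Fintype (Γ ⧸ U) := Fintype.ofBijective _ (Equiv.ofBijective emb hemb).symm.bijective
  let r : Γ ⧸ U → k := Quotient.lift res fun a b hab => by
    replace hab : a⁻¹ * b ∈ U := QuotientGroup.leftRel_apply.1 hab
    have h1 : b ((α : L) : ℚbar) = a ((α : L) : ℚbar) := by
      have := fixingSubgroup_apply hab (α : L).2
      rw [AlgEquiv.mul_apply] at this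
      conv_rhs => rw [← this]
      exact (a.apply_symm_apply _).symm
    exact congrArg (IsLocalRing.residue A) (Subtype.ext h1.symm)
  -- the norm
  have hprod : ((Algebra.norm ℤ α : ℤ) : k) = ∏ x : Γ ⧸ U, r x := by
    have h1 : ((Algebra.norm ℤ α : ℤ) : ℚbar) = ∏ τ : L →ₐ[ℚ] ℚbar, τ (α : L) := by
      rw [← Algebra.norm_eq_prod_embeddings ℚ ℚbar (α : L), ← Algebra.coe_norm_int, map_intCast]
    let c : Γ ⧸ U → A := fun x => ⟨emb x (α : L), by
      obtain ⟨g, rfl⟩ := QuotientGroup.mk_surjective x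
      exact hint g⟩
    have hc : ((Algebra.norm ℤ α : ℤ) : A) = ∏ x, c x := by
      refine Subtype.ext ?_
      push_cast
      rw [h1]
      exact (Fintype.prod_bijective emb hemb _ _ fun x => rfl).symm
    have h2 := congrArg (IsLocalRing.residue A) hc
    rw [map_intCast, map_prod] at h2
    refine h2.trans (Finset.prod_congr rfl fun x _ => ?_)
    obtain ⟨g, rfl⟩ := QuotientGroup.mk_surjective x
    rfl
  -- the orbits of inertia
  let I := A.inertiaSubgroupIn ℚ
  have hr : ∀ (i : I) (x : Γ ⧸ U), r (i • x) = r x := by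
    intro i x
    obtain ⟨g, rfl⟩ := QuotientGroup.mk_surjective x
    show res ((i : Γ) * g) = res g
    simp only [res]
    refine (Gal.residue_eq_residue_iff A _ _).2 ?_
    exact ((Gal.mem_inertia_iff A (i : Γ)).1 i.2).2 _ (hint g)
  let Ω := MulAction.orbitRel.Quotient I (Γ ⧸ U)
  have : Fintype Ω := Fintype.ofFinite _
  let rb : Ω → k := Quotient.lift r fun a b hab => by
    obtain ⟨i, rfl⟩ := hab
    exact hr i b
  set e := Nat.card h.range with he
  have hfib : ∀ ω : Ω,
      (Finset.univ.filter fun x : Γ ⧸ U => (Quotient.mk'' x : Ω) = ω).card = e := by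
    intro ω
    obtain ⟨x, rfl⟩ := Quotient.mk''_surjective ω
    obtain ⟨g, rfl⟩ := QuotientGroup.mk_surjective x
    rw [← Fintype.card_subtype, ← Nat.card_eq_fintype_card]
    have horb : Nat.card {y : Γ ⧸ U // (Quotient.mk'' y : Ω) = Quotient.mk'' (g : Γ ⧸ U)} =
        Nat.card (MulAction.orbit I (g : Γ ⧸ U)) :=
      Nat.card_congr (Equiv.subtypeEquivRight fun y => by
        rw [Quotient.eq'', MulAction.orbitRel_apply])
    rw [horb, Nat.card_congr (MulAction.orbitEquivQuotientStabilizer I (g : Γ ⧸ U))]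
    let θ : I →* G := (h.comp (cycloChar q)).comp I.subtype
    have hθ : θ.range = h.range := by
      refine le_antisymm (fun y ⟨i, hi⟩ => ⟨cycloChar q (i : Γ), hi⟩) ?_
      rintro y ⟨a, rfl⟩
      obtain ⟨i, hi, hia⟩ := exists_inertia_cycloChar_eq q hA a
      exact ⟨⟨i, hi⟩, congrArg h hia⟩
    have hstab : MulAction.stabilizer I (g : Γ ⧸ U) = θ.ker := by
      ext i
      rw [MulAction.mem_stabilizer_iff, MonoidHom.mem_ker]
      show (((i : Γ) * g : Γ) : Γ ⧸ U) = (g : Γ ⧸ U) ↔ h (cycloChar q (i : Γ)) = 1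
      rw [eq_comm, QuotientGroup.eq]
      have hA' : (g⁻¹ • A).LiesOverPrime q := Gal.liesOverPrime_smul g⁻¹ hA
      have hi' : g⁻¹ * (i : Γ) * g ∈ (g⁻¹ • A).inertiaSubgroupIn ℚ := by
        have := (Gal.mem_inertia_smul_iff g⁻¹ (i : Γ) A).2 i.2
        rwa [inv_inv] at this
      rw [show g⁻¹ * ((i : Γ) * g) = g⁻¹ * (i : Γ) * g by group, hI _ hA' _ hi',
        map_mul (cycloChar q), map_mul (cycloChar q), map_inv (cycloChar q), mul_comm,
        mul_inv_cancel_left]
    rw [he, ← hθ, ← Subgroup.index_ker, ← hstab]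
    rfl
  have hY : ((Algebra.norm ℤ α : ℤ) : k) = (∏ ω : Ω, rb ω) ^ e := by
    rw [hprod, ← Finset.prod_fiberwise Finset.univ (fun x : Γ ⧸ U => (Quotient.mk'' x : Ω)) r,
      ← Finset.prod_pow]
    refine Finset.prod_congr rfl fun ω _ => ?_
    rw [Finset.prod_congr rfl (g := fun _ => rb ω), Finset.prod_const, hfib ω]
    intro x hx
    rw [← (Finset.mem_filter.1 hx).2]
    rfl
  -- Frobenius permutes the orbits
  have hnorm : ∀ i : Γ, i ∈ I → φ * i * φ⁻¹ ∈ I := by
    intro i hi
    have := (Gal.mem_inertia_smul_iff φ i A).2 hi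
    rwa [hφ'.1] at this
  let Φ : Ω → Ω := Quotient.map' (fun x => φ • x) fun a b hab => by
    obtain ⟨i, rfl⟩ := hab
    refine ⟨⟨_, hnorm _ i.2⟩, ?_⟩
    show (φ * (i : Γ) * φ⁻¹) • (φ • b) = φ • ((i : Γ) • b)
    rw [← mul_smul, ← mul_smul, inv_mul_cancel_right]
  have hΦ : Function.Bijective Φ := Function.Surjective.bijective_of_finite fun ω => by
    obtain ⟨x, rfl⟩ := Quotient.mk''_surjective ω
    exact ⟨Quotient.mk'' (φ⁻¹ • x), congrArg Quotient.mk'' (smul_inv_smul φ x)⟩
  have hYq : (∏ ω : Ω, rb ω) ^ q = ∏ ω : Ω, rb ω := by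
    rw [← Finset.prod_pow]
    refine Fintype.prod_bijective Φ hΦ _ _ fun ω => ?_
    obtain ⟨x, rfl⟩ := Quotient.mk''_surjective ω
    obtain ⟨g, rfl⟩ := QuotientGroup.mk_surjective x
    show res g ^ q = res (φ * g)
    simp only [res]
    rw [← map_pow]
    refine ((Gal.residue_eq_residue_iff A _ _).2 ?_).symm
    exact hφ'.2 _ (hint g)
  -- conclusion
  set Y := ∏ ω : Ω, rb ω
  have hν0 : ((Algebra.norm ℤ α : ℤ) : k) ≠ 0 := by
    intro h0
    rw [CharP.intCast_eq_zero_iff k q, ← ZMod.intCast_zmod_eq_zero_iff_dvd, hν] at h0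
    exact ν.ne_zero h0
  have hY0 : Y ≠ 0 := fun h0 => hν0 (by rw [hY, h0, zero_pow (Nat.card_pos (α := h.range)).ne'])
  refine eq_one_of_pow_div_eq_one h (Units.ext ((ZMod.castHom dvd_rfl k).injective ?_))
  rw [Units.val_pow_eq_pow_val, map_pow, Units.val_one, map_one, ← hν, map_intCast, hY, ← pow_mul]
  have hedvd : e ∣ q - 1 := by
    rw [← ZMod.card_units q, ← Nat.card_eq_fintype_card, he, ← Subgroup.index_ker]
    exact Subgroup.index_dvd_card _
  rw [Nat.mul_div_cancel' hedvd]
  refine mul_right_cancel₀ hY0 ?_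
  rw [← pow_succ, Nat.sub_add_cancel hq.out.one_le, one_mul, hYq]

/-- The Artin map. -/
theorem exists_cycloArtin (hneg : h (-1) = 1) (S : Finset ℕ) (hqS : q ∈ S) :
    ∃ art : ClassGroup (𝓞 L) →* G, ∀ P : Place L S, art (cls P) = h (cycloChar q P.φ) := by
  let v : Place L S → G := fun P => h (cycloChar q P.φ)
  let J : Place L S → (Ideal (𝓞 L))⁰ := fun P =>
    ⟨Gal.primeBelow L P.A, mem_nonZeroDivisors_iff_ne_zero.2 (primeBelow_ne_bot P)⟩
  have hzero : ∀ l : List (Place L S), (l.map cls).prod = 1 → (l.map v).prod = 1 := by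
    intro l hl
    have hl' : ClassGroup.mk0 (l.map J).prod = 1 := by
      rw [map_list_prod, List.map_map]; exact hl
    obtain ⟨α, hα⟩ := ((ClassGroup.mk0_eq_one_iff ((l.map J).prod).2).1 hl').principal
    have hα' : (((l.map J).prod : (Ideal (𝓞 L))⁰) : Ideal (𝓞 L)) = Ideal.span {α} := hα
    have hne : ∀ P : Place L S, (P.p : ZMod q) ≠ 0 := fun P h0 => by
      rw [ZMod.natCast_eq_zero_iff] at h0
      exact P.notMem ((Nat.prime_dvd_prime_iff_eq hq.out P.prime).1 h0 ▸ hqS)
    let u : Place L S → (ZMod q)ˣ := fun P => Units.mk0 (P.p : ZMod q) (hne P)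
    have huv : ∀ P, h (u P) = v P := fun P => congrArg h (Units.ext
      (cycloChar_frob q P.prime (fun e => P.notMem (e ▸ hqS)) P.lies P.frob).symm)
    have hN : (Algebra.norm ℤ α).natAbs = (l.map fun P => P.p).prod := by
      rw [← Ideal.absNorm_span_singleton, ← hα', Submonoid.coe_list_prod, List.map_map,
        map_list_prod, List.map_map]
      congr 1
      refine List.map_congr_left fun P _ => ?_
      exact absNorm_primeBelow P
    have hcast : ((((l.map u).prod : (ZMod q)ˣ)) : ZMod q) = ((l.map fun P => P.p).prod : ℕ) := by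
      rw [← Units.coeHom_apply, map_list_prod, List.map_map, Nat.cast_list_prod, List.map_map]
      rfl
    have hhu : h (l.map u).prod = (l.map v).prod := by
      rw [map_list_prod, List.map_map]
      exact congrArg List.prod (List.map_congr_left fun P _ => huv P)
    rcases Int.natAbs_eq (Algebra.norm ℤ α) with h1 | h1 <;> rw [hN] at h1
    · rw [← hhu]
      refine map_norm_eq_one h L hI α _ ?_
      rw [hcast, h1, Int.cast_natCast]
    · have h3 := map_norm_eq_one h L hI α ((l.map u).prod * -1) (by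
        rw [h1, Units.val_mul, hcast, Units.val_neg, Units.val_one, Int.cast_neg, Int.cast_natCast,
          mul_neg, mul_one])
      rwa [map_mul, hneg, mul_one, hhu] at h3
  choose l hl using exists_list_cls (K := L) S
  have hwd : ∀ (m : List (Place L S)), ((l (m.map cls).prod).map v).prod = (m.map v).prod := by
    intro m
    set C := (m.map cls).prod
    have h1 := hzero (l C ++ l C⁻¹)
      (by rw [List.map_append, List.prod_append, hl, hl, mul_inv_cancel])
    have h2 := hzero (m ++ l C⁻¹) (by rw [List.map_append, List.prod_append, hl, mul_inv_cancel])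
    rw [List.map_append, List.prod_append] at h1 h2
    exact mul_right_cancel (h1.trans h2.symm)
  refine ⟨MonoidHom.mk' (fun C => ((l C).map v).prod) fun C D => ?_, fun P => ?_⟩
  · have h1 := hwd (l C ++ l D)
    rw [List.map_append, List.prod_append, hl, hl, List.map_append, List.prod_append] at h1
    exact h1
  · have h1 := hwd [P]
    simp only [List.map_cons, List.map_nil, List.prod_cons, List.prod_nil, mul_one] at h1
    exact h1

end Fermat.Agent.Root.ClassField
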