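import Fermat.Agent.Root.ClassField.Places

/-!
# Everywhere unramified homomorphisms on the Galois group of a subfield of `ℚ̄`

Functions which are finite level homomorphisms on `G_K`, the field cut out by one, the classes of
the places in its kernel, and the bound on their index by the order of the image.
-/

set_option autoImplicit false

noncomputable section

namespace Fermat.Agent.Root.ClassField

open NumberField IntermediateField
open scoped Pointwise

local notation "ℚbar" => AlgebraicClosure ℚ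
local notation "Γ" => AlgebraicClosure ℚ ≃ₐ[ℚ] AlgebraicClosure ℚ

variable {n : ℕ}

/-- `f` restricts to a finite-level homomorphism on `G_K`. -/
structure IsLevelHom (K : IntermediateField ℚ ℚbar) (f : Γ → ZMod n) : Prop where
  map_mul : ∀ σ ∈ K.fixingSubgroup, ∀ τ ∈ K.fixingSubgroup, f (σ * τ) = f σ + f τ
  level : ∃ M : IntermediateField ℚ ℚbar, FiniteDimensional ℚ M ∧
    ∀ σ ∈ K.fixingSubgroup, σ ∈ M.fixingSubgroup → f σ = 0

/-- `f` restricts to a finite-level homomorphism on `G_K` which kills all inertia. -/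
structure IsUnrHom (K : IntermediateField ℚ ℚbar) (f : Γ → ZMod n) : Prop
    extends IsLevelHom K f where
  unr : ∀ q : ℕ, q.Prime → ∀ A : ValuationSubring ℚbar, A.LiesOverPrime q →
    ∀ σ ∈ A.inertiaSubgroupIn ℚ, σ ∈ K.fixingSubgroup → f σ = 0

namespace IsLevelHom

variable {K L : IntermediateField ℚ ℚbar} {f : Γ → ZMod n} (hf : IsLevelHom K f)

include hf

theorem map_one : f 1 = 0 := by
  have h := hf.map_mul 1 (one_mem _) 1 (one_mem _)
  rw [mul_one] at h
  exact left_eq_add.1 h

theorem map_inv {σ : Γ} (hσ : σ ∈ K.fixingSubgroup) : f σ⁻¹ = -f σ := by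
  have h := hf.map_mul σ⁻¹ (inv_mem hσ) σ hσ
  rw [inv_mul_cancel, hf.map_one] at h
  exact eq_neg_of_add_eq_zero_left h.symm

theorem map_pow {σ : Γ} (hσ : σ ∈ K.fixingSubgroup) (i : ℕ) : f (σ ^ i) = i * f σ := by
  induction i with
  | zero => rw [pow_zero, hf.map_one, Nat.cast_zero, zero_mul]
  | succ i ih =>
    rw [pow_succ, hf.map_mul _ (pow_mem hσ i) _ hσ, ih, Nat.cast_succ, add_mul, one_mul]

theorem map_conj {g σ : Γ} (hg : g ∈ K.fixingSubgroup) (hσ : σ ∈ K.fixingSubgroup) :
    f (g * σ * g⁻¹) = f σ := by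
  rw [hf.map_mul _ (mul_mem hg hσ) _ (inv_mem hg), hf.map_mul _ hg _ hσ, hf.map_inv hg]
  abel

/-- The kernel of `f` on `G_K`. -/
def ker : Subgroup Γ where
  carrier := {σ | σ ∈ K.fixingSubgroup ∧ f σ = 0}
  one_mem' := ⟨one_mem _, hf.map_one⟩
  mul_mem' := fun {a b} ha hb =>
    ⟨mul_mem ha.1 hb.1, by rw [hf.map_mul _ ha.1 _ hb.1, ha.2, hb.2, add_zero]⟩
  inv_mem' := fun {a} ha => ⟨inv_mem ha.1, by rw [hf.map_inv ha.1, ha.2, neg_zero]⟩

/-- The field cut out by `f`. -/
def kernelField : IntermediateField ℚ ℚbar := IntermediateField.fixedField hf.ker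

theorem isOpen_ker [FiniteDimensional ℚ K] : IsOpen (hf.ker : Set Γ) := by
  obtain ⟨M, hM, hMf⟩ := hf.level
  refine Subgroup.isOpen_mono (H₁ := (K ⊔ M).fixingSubgroup) ?_
    (IntermediateField.fixingSubgroup_isOpen _)
  intro σ hσ
  exact ⟨IntermediateField.fixingSubgroup_le le_sup_left hσ,
    hMf σ (IntermediateField.fixingSubgroup_le le_sup_left hσ)
      (IntermediateField.fixingSubgroup_le le_sup_right hσ)⟩

theorem fixingSubgroup_kernelField [FiniteDimensional ℚ K] :
    hf.kernelField.fixingSubgroup = hf.ker :=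
  InfiniteGalois.fixingSubgroup_fixedField
    (⟨hf.ker, Subgroup.isClosed_of_isOpen _ hf.isOpen_ker⟩ : ClosedSubgroup Γ)

theorem mem_fixingSubgroup_kernelField [FiniteDimensional ℚ K] {σ : Γ} :
    σ ∈ hf.kernelField.fixingSubgroup ↔ σ ∈ K.fixingSubgroup ∧ f σ = 0 := by
  rw [hf.fixingSubgroup_kernelField]; rfl

theorem le_kernelField : K ≤ hf.kernelField := fun _x hx =>
  fun σ => fixingSubgroup_apply (show (σ : Γ) ∈ K.fixingSubgroup from σ.2.1) hx

theorem finiteDimensional_kernelField [FiniteDimensional ℚ K] :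
    FiniteDimensional ℚ hf.kernelField := by
  obtain ⟨M, hM, hMf⟩ := hf.level
  have h : hf.kernelField ≤ K ⊔ M := by
    intro x hx
    rw [← InfiniteGalois.fixedField_fixingSubgroup (K ⊔ M)]
    exact fun σ => hx ⟨σ.1, IntermediateField.fixingSubgroup_le le_sup_left σ.2,
      hMf σ.1 (IntermediateField.fixingSubgroup_le le_sup_left σ.2)
        (IntermediateField.fixingSubgroup_le le_sup_right σ.2)⟩
  exact FiniteDimensional.of_injective (IntermediateField.inclusion h).toLinearMap
    (IntermediateField.inclusion h).injective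

/-- Equal on a level, equal values. -/
theorem exists_level [FiniteDimensional ℚ K] :
    ∃ M : IntermediateField ℚ ℚbar, FiniteDimensional ℚ M ∧ K ≤ M ∧
      ∀ σ τ : Γ, σ ∈ K.fixingSubgroup → τ ∈ K.fixingSubgroup → (∀ x ∈ M, σ x = τ x) →
        f σ = f τ := by
  obtain ⟨M, hM, hMf⟩ := hf.level
  refine ⟨K ⊔ M, inferInstance, le_sup_left, fun σ τ hσ hτ h => ?_⟩
  have hfix : τ⁻¹ * σ ∈ (K ⊔ M).fixingSubgroup := (mem_fixingSubgroup_iff Γ).2 fun x hx => by
    show τ⁻¹ (σ x) = x
    rw [h x hx]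
    exact τ.symm_apply_apply x
  have h1 := hMf _ (IntermediateField.fixingSubgroup_le le_sup_left hfix)
    (IntermediateField.fixingSubgroup_le le_sup_right hfix)
  rw [hf.map_mul _ (inv_mem hτ) _ hσ, hf.map_inv hτ, neg_add_eq_zero] at h1
  exact h1.symm

theorem of_le (h : K ≤ L) : IsLevelHom L f where
  map_mul σ hσ τ hτ :=
    hf.map_mul σ (IntermediateField.fixingSubgroup_le h hσ) τ
      (IntermediateField.fixingSubgroup_le h hτ)
  level := by
    obtain ⟨M, hM, hMf⟩ := hf.level
    exact ⟨M, hM, fun σ hσ => hMf σ (IntermediateField.fixingSubgroup_le h hσ)⟩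

/-- `f` on `G_K` as a homomorphism. -/
def toHom : K.fixingSubgroup →* Multiplicative (ZMod n) where
  toFun σ := Multiplicative.ofAdd (f σ)
  map_one' := by rw [show ((1 : K.fixingSubgroup) : Γ) = 1 from rfl, hf.map_one]; rfl
  map_mul' σ τ := by rw [Subgroup.coe_mul, hf.map_mul _ σ.2 _ τ.2]; rfl

end IsLevelHom

variable {K : IntermediateField ℚ ℚbar} {f : Γ → ZMod n}

/-- The subgroup generated by the classes of places in the kernel of `f`. -/
def splitClasses (K : IntermediateField ℚ ℚbar) [NumberField K] (f : Γ → ZMod n) (S : Finset ℕ) :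
    Subgroup (ClassGroup (𝓞 K)) :=
  Subgroup.closure {C | ∃ P : Place K S, f P.φ = 0 ∧ cls P = C}

theorem splitClasses_anti [NumberField K] {S T : Finset ℕ} (h : S ⊆ T) :
    splitClasses K f T ≤ splitClasses K f S := by
  refine Subgroup.closure_mono ?_
  rintro C ⟨P, hP, rfl⟩
  exact ⟨P.weaken h, hP, rfl⟩

/-- Frobenius density for `f`. -/
theorem IsLevelHom.exists_place [NumberField K] (hf : IsLevelHom K f) (S : Finset ℕ) {σ : Γ}
    (hσ : σ ∈ K.fixingSubgroup) :
    ∃ (P : Place K S) (i j : ℕ), f σ = i * f P.φ ∧ f P.φ = j * f σ := by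
  obtain ⟨M, hM, -, hMf⟩ := hf.exists_level
  obtain ⟨P, i, j, h1, h2⟩ := exists_place_eqOn K M S hσ
  exact ⟨P, i, j, by rw [← hf.map_pow P.mem]; exact hMf _ _ hσ (pow_mem P.mem i) h1,
    by rw [← hf.map_pow hσ]; exact hMf _ _ P.mem (pow_mem hσ j) h2⟩

/-- The second inequality for `f`. -/
theorem IsLevelHom.index_splitClasses_le [NumberField K] (hf : IsLevelHom K f) (S : Finset ℕ) :
    (splitClasses K f S).index ≤ Nat.card hf.toHom.range := by
  have := hf.finiteDimensional_kernelField
  have : NumberField hf.kernelField := ⟨⟩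
  refine (index_le_of_places hf.le_kernelField (splitClasses K f S) S fun P => ?_).trans ?_
  · exact Subgroup.subset_closure
      ⟨P.restrict hf.le_kernelField, (hf.mem_fixingSubgroup_kernelField.1 P.mem).2, rfl⟩
  · refine le_of_eq ?_
    rw [← Subgroup.index_ker, Subgroup.relIndex, hf.fixingSubgroup_kernelField]
    congr 1
    ext σ
    show ((σ : Γ) ∈ K.fixingSubgroup ∧ f σ = 0) ↔ Multiplicative.ofAdd (f σ) = 1
    exact ⟨fun h => by rw [h.2]; rfl, fun h => ⟨σ.2, Multiplicative.ofAdd.injective h⟩⟩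

end Fermat.Agent.Root.ClassField
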