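import Fermat.Agent.Root.ClassField.ClassBound
import Fermat.Agent.Root.ClassField.ClassMap
import Fermat.Agent.Density.Places
import Fermat.Agent.Gal.Unramified

/-!
# Places of degree one of subfields of `ℚ̄`

A `Place` is a valuation with a Frobenius fixing `K`; these represent all classes, and Frobenius
density holds for them.
-/

set_option autoImplicit false

noncomputable section

namespace Fermat.Agent.Root.ClassField

open NumberField IntermediateField
open scoped Pointwise nonZeroDivisors

local notation "ℚbar" => AlgebraicClosure ℚ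
local notation "Γ" => AlgebraicClosure ℚ ≃ₐ[ℚ] AlgebraicClosure ℚ

/-- A place over a prime outside `S` with a Frobenius fixing `K`. -/
structure Place (K : IntermediateField ℚ ℚbar) (S : Finset ℕ) where
  A : ValuationSubring ℚbar
  p : ℕ
  φ : Γ
  prime : p.Prime
  notMem : p ∉ S
  lies : A.LiesOverPrime p
  frob : A.IsFrobeniusAt φ p
  mem : φ ∈ K.fixingSubgroup

variable {K L : IntermediateField ℚ ℚbar} {S T : Finset ℕ}

/-- A place of a larger field gives one of a smaller field. -/
def Place.restrict (h : K ≤ L) (P : Place L S) : Place K S :=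
  { P with mem := IntermediateField.fixingSubgroup_le h P.mem }

/-- Fewer excluded primes. -/
def Place.weaken (h : T ⊆ S) (P : Place K S) : Place K T :=
  { P with notMem := fun e => P.notMem (h e) }

theorem fixingSubgroup_apply {σ : Γ} (hσ : σ ∈ K.fixingSubgroup) {x : ℚbar} (hx : x ∈ K) :
    σ x = x :=
  (mem_fixingSubgroup_iff Γ).1 hσ x hx

/-- The residue field of a place is the prime field. -/
theorem absNorm_primeBelow [NumberField K] (P : Place K S) :
    Ideal.absNorm (Gal.primeBelow K P.A) = P.p := by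
  set Q := Gal.primeBelow K P.A
  have hQ : Q.IsPrime := inferInstance
  have hmem : (P.p : 𝓞 K) ∈ Q := Gal.natCast_mem_primeBelow K P.lies
  have : Finite (𝓞 K ⧸ Q) := Density.finite_residueRing P.prime hQ hmem
  have : Q.IsMaximal := Ideal.Quotient.maximal_of_isField _ (Finite.isField_of_domain (𝓞 K ⧸ Q))
  let := Ideal.Quotient.field Q
  have : Fintype (𝓞 K ⧸ Q) := Fintype.ofFinite _
  have hcard : Nat.card (𝓞 K ⧸ Q) ≤ P.p := by
    classical
    have hdeg := FiniteField.X_pow_card_sub_X_natDegree_eq (𝓞 K ⧸ Q) P.prime.one_lt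
    have hne := FiniteField.X_pow_card_sub_X_ne_zero (𝓞 K ⧸ Q) P.prime.one_lt
    rw [Nat.card_eq_fintype_card, ← hdeg, ← Finset.card_univ]
    refine Polynomial.card_le_degree_of_subset_roots fun y _ => ?_
    obtain ⟨y, rfl⟩ := Ideal.Quotient.mk_surjective y
    rw [Polynomial.mem_roots hne, Polynomial.IsRoot.def, Polynomial.eval_sub, Polynomial.eval_pow,
      Polynomial.eval_X, ← map_pow, sub_eq_zero, Ideal.Quotient.eq, Gal.mem_primeBelow]
    have h := ((Gal.isFrobeniusAt_iff P.A P.φ P.p).1 P.frob).2 ((y : K) : ℚbar)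
      (Gal.mem_of_isIntegral P.A (RingOfIntegers.isIntegral_coe y).algebraMap)
    rw [fixingSubgroup_apply P.mem (y : K).2] at h
    simpa using neg_mem h
  obtain ⟨n, hn, hnorm⟩ := Density.absNorm_eq_pow_of_natCast_mem P.prime hQ hmem
  rw [Ideal.absNorm_apply, Submodule.cardQuot_apply] at hnorm
  rw [Ideal.absNorm_apply, Submodule.cardQuot_apply]
  exact le_antisymm hcard (hnorm ▸ Nat.le_self_pow hn.ne' P.p)

theorem primeBelow_ne_bot [NumberField K] (P : Place K S) : Gal.primeBelow K P.A ≠ ⊥ :=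
  Density.ne_bot_of_absNorm_eq P.prime.ne_zero (absNorm_primeBelow P)

/-- The class of the prime below a place. -/
def cls [NumberField K] (P : Place K S) : ClassGroup (𝓞 K) :=
  ClassGroup.mk0 ⟨Gal.primeBelow K P.A, mem_nonZeroDivisors_iff_ne_zero.2 (primeBelow_ne_bot P)⟩

/-- The norm map of class groups of `K ≤ L`. -/
def normLE [NumberField K] [NumberField L] (h : K ≤ L) : ClassGroup (𝓞 L) →* ClassGroup (𝓞 K) :=
  letI : Algebra K L := (IntermediateField.inclusion h).toAlgebra
  clNorm K L

theorem normLE_cls [NumberField K] [NumberField L] (h : K ≤ L) (P : Place L S) :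
    normLE h (cls P) = cls (P.restrict h) := by
  let : Algebra K L := (IntermediateField.inclusion h).toAlgebra
  show clNorm K L (ClassGroup.mk0 _) = _
  rw [clNorm_mk0]
  refine congrArg ClassGroup.mk0 (Subtype.ext ?_)
  refine (relNorm_eq_under (K := K) P.prime (absNorm_primeBelow P)).trans ?_
  rfl

/-- Elements acting trivially modulo a good place fix the field. -/
theorem exists_bad_set (K : IntermediateField ℚ ℚbar) [NumberField K] :
    ∃ S : Finset ℕ, ∀ p : ℕ, p.Prime → p ∉ S → ∀ A : ValuationSubring ℚbar, A.LiesOverPrime p →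
      ∀ σ : Γ, (∀ x : 𝓞 K, σ ((x : K) : ℚbar) - ((x : K) : ℚbar) ∈ A.nonunits) →
        σ ∈ K.fixingSubgroup := by
  classical
  let b := RingOfIntegers.basis K
  let f : Module.Free.ChooseBasisIndex ℤ (𝓞 K) → Polynomial ℤ := fun i => minpoly ℤ (b i)
  let d : Module.Free.ChooseBasisIndex ℤ (𝓞 K) → 𝓞 K := fun i =>
    Polynomial.aeval (b i) (Polynomial.derivative (f i))
  have hd : ∀ i, d i ≠ 0 := fun i hi => by
    have h1 : Polynomial.aeval ((b i : 𝓞 K) : K)
        (Polynomial.derivative ((f i).map (Int.castRingHom ℚ))) = 0 := by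
      rw [Polynomial.derivative_map, ← algebraMap_int_eq, Polynomial.aeval_map_algebraMap]
      rw [show ((b i : 𝓞 K) : K) = algebraMap (𝓞 K) K (b i) from rfl,
        Polynomial.aeval_algebraMap_apply]
      rw [show Polynomial.aeval (b i) (Polynomial.derivative (f i)) = 0 from hi, map_zero]
    have hf : (f i).map (Int.castRingHom ℚ) = minpoly ℚ ((b i : 𝓞 K) : K) := by
      rw [minpoly.isIntegrallyClosed_eq_field_fractions' ℚ
        (RingOfIntegers.isIntegral_coe (b i))]
      rw [minpoly.algebraMap_eq (FaithfulSMul.algebraMap_injective (𝓞 K) K)]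
      rfl
    have hsep : (minpoly ℚ ((b i : 𝓞 K) : K)).Separable :=
      (minpoly.irreducible (Algebra.IsIntegral.isIntegral _)).separable
    rw [hf] at h1
    exact hsep.aeval_derivative_ne_zero (minpoly.aeval ℚ _) h1
  refine ⟨(∏ i, Ideal.absNorm (Ideal.span {d i})).primeFactors, fun p hp hpS A hA σ hσ => ?_⟩
  have hB : (∏ i, Ideal.absNorm (Ideal.span {d i})) ≠ 0 := by
    rw [Finset.prod_ne_zero_iff]
    intro i _
    rw [Ne, Ideal.absNorm_eq_zero_iff, Ideal.span_singleton_eq_bot]
    exact hd i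
  have hgen : ∀ i, σ (((b i : 𝓞 K) : K) : ℚbar) = (((b i : 𝓞 K) : K) : ℚbar) := by
    intro i
    by_contra hne
    let θ : integralClosure ℤ ℚbar := Gal.ringOfIntegersToZbar K (b i)
    let θ' : integralClosure ℤ ℚbar := σ • θ
    have hθθ' : θ' ≠ θ := fun e => hne (congrArg Subtype.val e)
    let F : Polynomial (integralClosure ℤ ℚbar) := (f i).map (algebraMap ℤ _)
    have heval : ∀ g : Polynomial ℤ,
        Polynomial.aeval θ g = Gal.ringOfIntegersToZbar K (Polynomial.aeval (b i) g) := fun g =>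
      Polynomial.aeval_algHom_apply (Gal.ringOfIntegersToZbar K).toIntAlgHom (b i) g
    have hroot : F.IsRoot θ := by
      rw [Polynomial.IsRoot.def, Polynomial.eval_map, ← Polynomial.aeval_def, heval, minpoly.aeval,
        map_zero]
    have hroot' : F.IsRoot θ' := by
      have h1 : MulSemiringAction.toAlgHom ℤ (integralClosure ℤ ℚbar) σ θ = θ' := rfl
      rw [Polynomial.IsRoot.def, Polynomial.eval_map, ← Polynomial.aeval_def, ← h1,
        Polynomial.aeval_algHom_apply]
      have h2 : Polynomial.aeval θ (f i) = 0 := by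
        rw [Polynomial.aeval_def, ← Polynomial.eval_map]; exact hroot
      rw [h2, map_zero]
    obtain ⟨g, hg⟩ := Polynomial.dvd_iff_isRoot.2 hroot
    have hg' : g.eval θ' = 0 := by
      have := hroot'
      rw [Polynomial.IsRoot.def, hg, Polynomial.eval_mul, Polynomial.eval_sub, Polynomial.eval_X,
        Polynomial.eval_C] at this
      exact (mul_eq_zero.1 this).resolve_left (sub_ne_zero.2 hθθ')
    have hder : F.derivative.eval θ = g.eval θ := by
      rw [hg, Polynomial.derivative_mul]; simp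
    have hdiff : θ - θ' ∈ Gal.centre A := by
      rw [Gal.mem_centre]
      have := neg_mem (hσ (b i))
      rw [neg_sub] at this
      exact this
    have hgθ : g.eval θ ∈ Gal.centre A := by
      have := Ideal.mem_of_dvd _ (g.sub_dvd_eval_sub θ θ') hdiff
      rwa [hg', sub_zero] at this
    have hdmem : d i ∈ Gal.primeBelow K A := by
      rw [Gal.mem_primeBelow]
      rw [← hder, Polynomial.derivative_map, Polynomial.eval_map, ← Polynomial.aeval_def, heval,
        Gal.mem_centre, Gal.coe_ringOfIntegersToZbar] at hgθ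
      exact hgθ
    have hNmem : (Ideal.absNorm (Ideal.span {d i}) : 𝓞 K) ∈ Gal.primeBelow K A :=
      (Ideal.span_singleton_le_iff_mem _).2 hdmem (Ideal.absNorm_mem _)
    rw [Gal.mem_primeBelow] at hNmem
    have hdvd : p ∣ Ideal.absNorm (Ideal.span {d i}) :=
      (Gal.natCast_mem_nonunits_iff A hp hA _).1 (by simpa using hNmem)
    exact hpS (Nat.mem_primeFactors.2 ⟨hp, hdvd.trans (Finset.dvd_prod_of_mem _
      (Finset.mem_univ i)), hB⟩)
  refine (mem_fixingSubgroup_iff Γ).2 fun x hx => ?_
  let σK : K →ₐ[ℚ] ℚbar := (σ : ℚbar →ₐ[ℚ] ℚbar).comp K.val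
  have heq : σK.toLinearMap = K.val.toLinearMap :=
    (integralBasis K).ext fun i => by rw [integralBasis_apply]; exact hgen i
  exact DFunLike.congr_fun heq ⟨x, hx⟩

/-- Every prime of a subfield of `ℚ̄` lies below a valuation subring. -/
theorem exists_primeBelow (K : IntermediateField ℚ ℚbar) [NumberField K] (P : Ideal (𝓞 K))
    [P.IsMaximal] :
    ∃ (q : ℕ) (A : ValuationSubring ℚbar), q.Prime ∧ A.LiesOverPrime q ∧
      Gal.primeBelow K A = P := by
  set N : IntermediateField ℚ ℚbar := IntermediateField.normalClosure ℚ K ℚbar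
  have hKN : K ≤ N := K.le_normalClosure
  have : FiniteDimensional ℚ N := normalClosure.is_finiteDimensional ℚ _ _
  have : Normal ℚ N := normalClosure.normal ℚ _ _
  have : NumberField N := ⟨⟩
  have : IsGalois ℚ N := ⟨⟩
  let : Algebra K N := (IntermediateField.inclusion hKN).toAlgebra
  obtain ⟨Q, hQ, hQP⟩ := Ideal.exists_ideal_over_maximal_of_isIntegral (S := 𝓞 N) P (by simp)
  obtain ⟨q, A, hq, hA, hQA⟩ := Gal.exists_primeBelow_eq N Q
  refine ⟨q, A, hq, hA, ?_⟩
  rw [← hQP, ← hQA]
  rfl

/-- Primes of prime norm outside a finite set come from places. -/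
theorem exists_place_bad_set (K : IntermediateField ℚ ℚbar) [NumberField K] :
    ∃ S : Finset ℕ, ∀ (T : Finset ℕ) (p : ℕ), p.Prime → p ∉ S → p ∉ T → ∀ P : Ideal (𝓞 K),
      Ideal.absNorm P = p → ∃ X : Place K T, Gal.primeBelow K X.A = P ∧ X.p = p := by
  obtain ⟨S, hS⟩ := exists_bad_set K
  refine ⟨S, fun T p hp hpS hpT P hP => ?_⟩
  have : P.IsMaximal :=
    (Density.isPrime_of_absNorm_eq_prime hp hP).isMaximal
      (Density.ne_bot_of_absNorm_eq hp.ne_zero hP)
  obtain ⟨q, A, hq, hA, hAP⟩ := exists_primeBelow K P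
  obtain rfl : q = p := by
    have h1 : (p : 𝓞 K) ∈ Gal.primeBelow K A := hAP ▸ Density.natCast_mem_of_absNorm_eq hP
    rw [Gal.mem_primeBelow] at h1
    exact ((Nat.prime_dvd_prime_iff_eq hq hp).1
      ((Gal.natCast_mem_nonunits_iff A hq hA p).1 (by simpa using h1)))
  obtain ⟨φ, hφ⟩ := Gal.exists_isFrobeniusAt hq hA
  refine ⟨⟨A, q, φ, hq, hpT, hA, hφ, hS q hp hpS A hA φ fun x => ?_⟩, hAP, rfl⟩
  have hres : x ^ q - x ∈ P := by
    have : Finite (𝓞 K ⧸ P) := Density.finite_residueRing hp inferInstance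
      (Density.natCast_mem_of_absNorm_eq hP)
    let := Ideal.Quotient.field P
    have : Fintype (𝓞 K ⧸ P) := Fintype.ofFinite _
    rw [← Ideal.Quotient.eq, map_pow]
    have hc : Fintype.card (𝓞 K ⧸ P) = q := by
      rw [← Nat.card_eq_fintype_card, ← hP, Ideal.absNorm_apply, Submodule.cardQuot_apply]
    rw [← hc, FiniteField.pow_card]
  rw [← hAP, Gal.mem_primeBelow] at hres
  have h2 := ((Gal.isFrobeniusAt_iff A φ q).1 hφ).2 _
    (Gal.mem_of_isIntegral A (RingOfIntegers.isIntegral_coe x).algebraMap)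
  simpa using add_mem h2 hres

/-- The classes of places generate. -/
theorem closure_range_cls (K : IntermediateField ℚ ℚbar) [NumberField K] (T : Finset ℕ) :
    Subgroup.closure (Set.range fun P : Place K T => cls P) = ⊤ := by
  obtain ⟨S, hS⟩ := exists_place_bad_set K
  refine eq_top_of_deg_one _ (S ∪ T) fun p hp hpS P hP h0 => ?_
  simp only [Finset.mem_union, not_or] at hpS
  obtain ⟨X, hX, -⟩ := hS T p hp hpS.1 hpS.2 P hP
  refine Subgroup.subset_closure ⟨X, congrArg ClassGroup.mk0 (Subtype.ext hX)⟩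

/-- Every class is a product of classes of places. -/
theorem exists_list_cls [NumberField K] (T : Finset ℕ) (C : ClassGroup (𝓞 K)) :
    ∃ l : List (Place K T), (l.map cls).prod = C := by
  have h : C ∈ Submonoid.closure (Set.range fun P : Place K T => cls P) := by
    rw [← Subgroup.closure_toSubmonoid_of_finite (G := ClassGroup (𝓞 K)), closure_range_cls]
    exact Subgroup.mem_top C
  obtain ⟨l, hl, rfl⟩ := Submonoid.exists_list_of_mem_closure h
  choose P hP using hl
  refine ⟨l.pmap (fun C hC => P C hC) fun _ h => h, ?_⟩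
  rw [List.map_pmap]
  congr 1
  conv_rhs => rw [← List.map_id l]
  rw [← List.pmap_eq_map (p := fun C => C ∈ l) (f := id) (l := l) (H := fun _ h => h)]
  exact List.pmap_congr_left _ fun a _ h1 _ => hP a h1

/-- A subgroup containing the classes of the places of `L` has index at most `[L : K]`. -/
theorem index_le_of_places [NumberField K] [NumberField L] (h : K ≤ L)
    (H : Subgroup (ClassGroup (𝓞 K))) (T : Finset ℕ)
    (hH : ∀ P : Place L T, cls (P.restrict h) ∈ H) :
    H.index ≤ L.fixingSubgroup.relIndex K.fixingSubgroup := by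
  let : Algebra K L := (IntermediateField.inclusion h).toAlgebra
  obtain ⟨S, hS⟩ := exists_place_bad_set L
  refine (index_le_finrank (K := K) (M := L) H (S ∪ T) fun p hp hpS Q hQ h0 => ?_).trans ?_
  · simp only [Finset.mem_union, not_or] at hpS
    obtain ⟨X, hX, -⟩ := hS T p hp hpS.1 hpS.2 Q hQ
    convert hH X using 1
    refine congrArg ClassGroup.mk0 (Subtype.ext ?_)
    show Q.under (𝓞 K) = Gal.primeBelow K X.A
    rw [← hX]
    rfl
  · refine le_of_eq ?_
    have : IsScalarTower ℚ K L := IsScalarTower.of_algebraMap_eq fun x => rfl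
    have hK : Module.finrank ℚ K = K.fixingSubgroup.index :=
      IntermediateField.finrank_eq_fixingSubgroup_index ℚbar K
    have hL : Module.finrank ℚ L = L.fixingSubgroup.index :=
      IntermediateField.finrank_eq_fixingSubgroup_index ℚbar L
    have h1 := Subgroup.relIndex_mul_index (IntermediateField.fixingSubgroup_le h)
    have h2 := Module.finrank_mul_finrank ℚ K L
    rw [← hK, ← hL, ← h2, mul_comm (Module.finrank ℚ K)] at h1
    exact (Nat.eq_of_mul_eq_mul_right Module.finrank_pos h1).symm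

/-- Frobenius density: up to a conjugate and a power every element is a Frobenius. -/
theorem exists_place_eqOn (K M : IntermediateField ℚ ℚbar) [NumberField K]
    [FiniteDimensional ℚ M] (T : Finset ℕ) {σ : Γ} (hσ : σ ∈ K.fixingSubgroup) :
    ∃ (P : Place K T) (i j : ℕ), (∀ x ∈ M, σ x = (P.φ ^ i) x) ∧ ∀ x ∈ M, P.φ x = (σ ^ j) x := by
  set N := IntermediateField.normalClosure ℚ ↥(K ⊔ M) ℚbar
  have : FiniteDimensional ℚ N := normalClosure.is_finiteDimensional ℚ _ _
  have : Normal ℚ N := normalClosure.normal ℚ _ _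
  obtain ⟨p, hp, hpT, h⟩ := Density.exists_prime_zpowers_restrict_eq N σ T
  obtain ⟨A, hA⟩ := Gal.exists_liesOverPrime (L := ℚbar) hp
  obtain ⟨τ, hτ⟩ := Gal.exists_isFrobeniusAt hp hA
  obtain ⟨g, hg⟩ := (h A hA).2 τ hτ
  have hle : K ⊔ M ≤ N := (K ⊔ M).le_normalClosure
  obtain ⟨j, hj⟩ := mem_powers_iff_mem_zpowers.2 (hg ▸ Subgroup.mem_zpowers
    (AlgEquiv.restrictNormalHom N (g * τ * g⁻¹)))
  obtain ⟨i, hi⟩ := mem_powers_iff_mem_zpowers.2 (hg.symm ▸ Subgroup.mem_zpowers
    (AlgEquiv.restrictNormalHom N σ))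
  have hres : ∀ (a b : Γ), AlgEquiv.restrictNormalHom N a = AlgEquiv.restrictNormalHom N b →
      ∀ x ∈ N, a x = b x := fun a b hab x hx => by
    have h1 := AlgEquiv.restrictNormal_commutes a N ⟨x, hx⟩
    have h2 := AlgEquiv.restrictNormal_commutes b N ⟨x, hx⟩
    rw [show AlgEquiv.restrictNormal a N = AlgEquiv.restrictNormal b N from hab] at h1
    exact h1.symm.trans h2
  have e1 : ∀ x ∈ N, (g * τ * g⁻¹) x = (σ ^ j) x :=
    hres _ _ (by rw [map_pow]; exact hj.symm)
  have e2 : ∀ x ∈ N, σ x = ((g * τ * g⁻¹) ^ i) x :=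
    hres _ _ (by rw [map_pow]; exact hi.symm)
  refine ⟨⟨g • A, p, g * τ * g⁻¹, hp, hpT, Gal.liesOverPrime_smul g hA,
    (Gal.isFrobeniusAt_smul_iff g τ A p).2 hτ, (mem_fixingSubgroup_iff Γ).2 fun x hx => ?_⟩,
    i, j, fun x hx => e2 x (hle (le_sup_right (a := K) hx)),
    fun x hx => e1 x (hle (le_sup_right (a := K) hx))⟩
  show (g * τ * g⁻¹) x = x
  rw [e1 x (hle (le_sup_left (b := M) hx))]
  exact fixingSubgroup_apply (Subgroup.pow_mem _ hσ j) hx

end Fermat.Agent.Root.ClassField
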